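import Fermat.Agent.TEll.Along
import Fermat.Agent.FF.Along
import Fermat.Agent.FF.AlgClosed
import Fermat.Prelude.Def_AlgebraicCurve_BaseChangeGalois

/-!
# Classes split at a valuation, and the push-forward on `Pic⁰`
-/

set_option autoImplicit false
set_option linter.style.haveILetI false

noncomputable section

open AlgebraicCurve Fermat.Agent.TEll

namespace Fermat.Agent.QX4

variable {K F F' Fm : Type*} [Field K] [Field F] [Algebra K F] [Field F'] [Field Fm] [Algebra K Fm]

/-- `x ∈ Pic⁰[n]` is split at the valuation ring `O` with residue map `ρ`: `x = [D]`,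
`n D = div f` with `ρ f` an `n`-th power. -/
def Split (O : ValuationSubring F) (ρ : O →+* F') (n : ℕ) (x : Pic0 K F) : Prop :=
  ∃ (D : Divisor.degZero (K := K) (F := F)) (f : F) (hf : f ∈ O) (u : F'), x = Pic0.mk D ∧
    u ≠ 0 ∧ (∀ v : Place K F, v.ord f = n * (D : Divisor K F) v) ∧ ρ ⟨f, hf⟩ = u ^ n

/-- the push-forward of degree zero divisors. -/
def pushDegZero (φ : Fm →ₐ[K] F) (hφ : φ.toRingHom.IsIntegral) :
    Divisor.degZero (K := K) (F := F) →+ Divisor.degZero (K := K) (F := Fm) :=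
  ((Divisor.pushforwardAlong φ hφ).domRestrict (Divisor.degZero (K := K) (F := F))).codRestrict _
    (fun D => Divisor.pushforwardAlong_mem_degZero φ hφ D.2)

@[simp]
theorem coe_pushDegZero (φ : Fm →ₐ[K] F) (hφ : φ.toRingHom.IsIntegral)
    (D : Divisor.degZero (K := K) (F := F)) :
    (pushDegZero φ hφ D : Divisor K Fm) = Divisor.pushforwardAlong φ hφ (D : Divisor K F) := rfl

/-- the push-forward on `Pic⁰`. -/
def pushPic0 (φ : Fm →ₐ[K] F) (hφ : φ.toRingHom.IsIntegral) (hfin : FiniteAlong K φ)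
    (hN : NormFormulaAlong K φ hfin) : Pic0 K F →+ Pic0 K Fm :=
  QuotientAddGroup.map _ _ (pushDegZero φ hφ) (by
    rintro ⟨D, hD0⟩ hD
    simp only [AddSubgroup.mem_addSubgroupOf] at hD ⊢
    exact Divisor.isPrincipal_pushforwardAlong φ hφ hfin hN hD)

@[simp]
theorem pushPic0_mk (φ : Fm →ₐ[K] F) (hφ : φ.toRingHom.IsIntegral) (hfin : FiniteAlong K φ)
    (hN : NormFormulaAlong K φ hfin) (D : Divisor.degZero (K := K) (F := F)) :
    pushPic0 φ hφ hfin hN (Pic0.mk D) = Pic0.mk (pushDegZero φ hφ D) := rfl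

theorem mk_eq_zero_iff (D : Divisor.degZero (K := K) (F := F)) :
    Pic0.mk D = 0 ↔ Divisor.IsPrincipal (D : Divisor K F) := by
  rw [← Pic0.mk_zero]
  constructor
  · intro h
    have h1 := (QuotientAddGroup.eq).mp h.symm
    rw [neg_zero, zero_add, AddSubgroup.mem_addSubgroupOf] at h1
    exact h1
  · intro h
    refine Eq.symm ((QuotientAddGroup.eq).mpr ?_)
    rw [neg_zero, zero_add, AddSubgroup.mem_addSubgroupOf]
    exact h

/-- a torsion class is represented by a divisor `D` with `n D` principal. -/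
theorem exists_ord_eq_of_nsmul_eq_zero {n : ℕ} {D : Divisor.degZero (K := K) (F := F)}
    (h : n • Pic0.mk D = 0) : ∃ f : F, f ≠ 0 ∧ ∀ v : Place K F, v.ord f = n * (D : Divisor K F) v := by
  have h1 : Pic0.mk (n • D) = 0 := by
    rw [← h]; rfl
  obtain ⟨f, hf, hD⟩ := (mk_eq_zero_iff _).mp h1
  refine ⟨f, hf, fun v => ?_⟩
  rw [← hD v]
  simp

/-- units of the function field (no zeros and poles) are constants. -/
theorem exists_const_of_ord_eq_zero [IsAlgClosed K] [FF.IsFF K F] {f : F} (hf : f ≠ 0)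
    (h : ∀ v : Place K F, v.ord f = 0) : ∃ c : K, algebraMap K F c = f := by
  by_cases htr : Transcendental K f
  · exfalso
    obtain ⟨v, hv⟩ := FF.exists_zero htr
    exact hv.ne' (h v)
  · rw [Transcendental, not_not] at htr
    exact FF.mem_range_of_isAlgebraic htr

theorem ord_algebraMap_eq_zero (v : Place K F) {c : K} (hc : c ≠ 0) :
    v.ord (algebraMap K F c) = 0 := by
  have h1 : algebraMap K F c ∈ v.toValuationSubring := v.algebraMap_mem' c
  have h2 : algebraMap K F c⁻¹ ∈ v.toValuationSubring := v.algebraMap_mem' c⁻¹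
  have hu : IsUnit (⟨algebraMap K F c, h1⟩ : v.toValuationSubring) := by
    refine IsUnit.of_mul_eq_one ⟨algebraMap K F c⁻¹, h2⟩ (Subtype.ext ?_)
    change algebraMap K F c * algebraMap K F c⁻¹ = 1
    rw [← map_mul, mul_inv_cancel₀ hc, map_one]
  obtain ⟨u, hu⟩ := hu
  have := v.ord_coe_unit u
  rwa [hu] at this

end Fermat.Agent.QX4

end
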