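import Fermat.Agent.QX4.NormHecke
import Fermat.Agent.QX4.Defs
import Fermat.Agent.TEll.HeckeDiv

/-!
# The push-forward `α_*` and the Atkin--Lehner involution commute with `T_ℓ` on torsion
-/

set_option autoImplicit false
set_option linter.style.haveILetI false
set_option linter.unusedSectionVars false

noncomputable section

open ModularCurve AlgebraicCurve IntermediateField Fermat.Agent.TEll Fermat.Agent.X0Emb
open Fermat.Agent.RR (div div_apply)
open Fermat.Agent.TwoGauss (wq)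

namespace Fermat.Agent.QX4

section General

variable {K F F' : Type*} [Field K] [Field F] [Algebra K F] [Field F'] [Algebra K F']

theorem divisor_nsmul_inj {n : ℕ} (hn : n ≠ 0) {D D' : Divisor K F} (h : n • D = n • D') :
    D = D' := by
  ext v
  have h1 := DFunLike.congr_fun h v
  rw [Finsupp.smul_apply, Finsupp.smul_apply] at h1
  exact smul_right_injective ℤ hn h1

variable [HasPrincipalDivisors K F] [HasPrincipalDivisors K F']

theorem exists_div_of_nsmul_eq_zero {n : ℕ} {D : Divisor.degZero (K := K) (F := F)}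
    (h : n • Pic0.mk D = 0) : ∃ f : F, f ≠ 0 ∧ n • (D : Divisor K F) = div f := by
  obtain ⟨f, hf0, hf⟩ := exists_ord_eq_of_nsmul_eq_zero h
  refine ⟨f, hf0, ?_⟩
  ext v
  rw [div_apply, hf v, Finsupp.smul_apply]
  simp

theorem push_div (φ : F →ₐ[K] F') (hφ : φ.toRingHom.IsIntegral)
    (hfin : FiniteAlong K φ) (hN : NormFormulaAlong K φ hfin) {g : F'} (hg : g ≠ 0) :
    Divisor.pushforwardAlong φ hφ (div g) = div (normAlong φ g) := by
  ext v
  rw [div_apply]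
  exact pushforwardAlong_eq_ord φ hφ hfin hN hg (fun w => div_apply g w) v

theorem smul_div (s : SemilinearAut K F) (f : F) :
    s • (div f : Divisor K F) = div (s • f) := by
  ext v
  rw [SemilinearAut.divisor_smul_apply, div_apply, div_apply]
  have h := SemilinearAut.ord_smul s (s⁻¹ • v) f
  rw [smul_inv_smul] at h
  exact h.symm

end General

variable {m q : ℕ} [NeZero m] [NeZero q]

theorem intA (m q : ℕ) [NeZero m] [NeZero q] :
    (heckeAlphaBar (AlgebraicClosure ℚ) m q).toRingHom.IsIntegral := intAlpha m q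

/-- `α_* : J₀(mq) → J₀(m)`. -/
def pushA (m q : ℕ) [NeZero m] [NeZero q] : JZero (m * q) →+ JZero m :=
  pushPic0 (heckeAlphaBar (AlgebraicClosure ℚ) m q) (intA m q) (finAlpha m q) (nfAlpha m q)

theorem pushA_mk (D : Divisor.degZero (K := AlgebraicClosure ℚ)
    (F := modularFunctionFieldBar (m * q))) :
    pushA m q (Pic0.mk D) = Pic0.mk (pushDegZero (heckeAlphaBar (AlgebraicClosure ℚ) m q)
      (intA m q) D) := pushPic0_mk _ _ _ _ D

/-- `w_q` on `J₀(mq)`. -/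
def wJ (hq : q.Prime) (hm : ¬ q ∣ m) : JZero (m * q) →+ JZero (m * q) :=
  DistribSMul.toAddMonoidHom _ (SemilinearAut.ofAlgAut (wq hq hm))

theorem wJ_apply (hq : q.Prime) (hm : ¬ q ∣ m) (x : JZero (m * q)) :
    wJ hq hm x = SemilinearAut.ofAlgAut (wq hq hm) • x := rfl

theorem wJ_mk (hq : q.Prime) (hm : ¬ q ∣ m) (D : Divisor.degZero (K := AlgebraicClosure ℚ)
    (F := modularFunctionFieldBar (m * q))) :
    wJ hq hm (Pic0.mk D) =
      Pic0.mk (SemilinearAut.degZeroSMulHom (SemilinearAut.ofAlgAut (wq hq hm)) D) := rfl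

theorem wJ_wJ (hq : q.Prime) (hm : ¬ q ∣ m) (x : JZero (m * q)) :
    wJ hq hm (wJ hq hm x) = x := by
  rw [wJ_apply, wJ_apply, smul_smul, ← map_mul]
  have h : wq hq hm * wq hq hm = 1 := by
    ext1 f
    exact Fermat.Agent.TwoGauss.wq_wq hq hm f
  rw [h, map_one, one_smul]

/-- `α_*` commutes with `T_ℓ` on torsion classes. -/
theorem pushA_hecke (hq : q.Prime) (hm : ¬ q ∣ m) (ℓ : Nat.Primes) (hℓ : ¬ (ℓ : ℕ) ∣ m * q)
    {n : ℕ} (hn : n ≠ 0) (x : JZero (m * q)) (hx : n • x = 0) :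
    pushA m q (heckeOperatorBar (m * q) ℓ x) = heckeOperatorBar m ℓ (pushA m q x) := by
  haveI : NeZero (ℓ : ℕ) := ⟨ℓ.2.ne_zero⟩
  obtain ⟨D, rfl⟩ := Pic0.mk_surjective x
  obtain ⟨f, hf0, hf⟩ := exists_div_of_nsmul_eq_zero hx
  obtain ⟨D1, hD1, e1⟩ := heckeOperatorBar_mk ℓ D
  obtain ⟨D2, hD2, e2⟩ := heckeOperatorBar_mk ℓ (pushDegZero
    (heckeAlphaBar (AlgebraicClosure ℚ) m q) (intA m q) D)
  rw [e1, pushA_mk, pushA_mk, e2]
  congr 1
  apply Subtype.ext
  rw [coe_pushDegZero, hD1, hD2, coe_pushDegZero]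
  apply divisor_nsmul_inj hn
  have hT0 : TEll (AlgebraicClosure ℚ) (m * q) ℓ f ≠ 0 := TEll_ne_zero _ _ _ (finAlpha _ _) hf0
  have hN0 : normAlong (heckeAlphaBar (AlgebraicClosure ℚ) m q) f ≠ 0 :=
    normAlong_ne_zero _ (finAlpha m q) hf0
  rw [← map_nsmul, ← map_nsmul, ← map_nsmul, ← map_nsmul, hf, heckeDiv_div hf0,
    push_div _ (intA m q) (finAlpha m q) (nfAlpha m q) hT0,
    push_div _ (intA m q) (finAlpha m q) (nfAlpha m q) hf0, heckeDiv_div hN0,
    normAlong_TEll hq hm ℓ.2 hℓ]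

theorem smul_heckeDiv (hq : q.Prime) (hm : ¬ q ∣ m) (ℓ : ℕ) [NeZero ℓ] (hℓ : Nat.Coprime q ℓ)
    {n : ℕ} (hn : n ≠ 0) (D : Divisor (AlgebraicClosure ℚ) (modularFunctionFieldBar (m * q)))
    {f : modularFunctionFieldBar (m * q)} (hf0 : f ≠ 0) (hf : n • D = div f) :
    SemilinearAut.ofAlgAut (wq hq hm) • heckeDiv (m * q) ℓ D =
      heckeDiv (m * q) ℓ (SemilinearAut.ofAlgAut (wq hq hm) • D) := by
  apply divisor_nsmul_inj hn
  have hw0 : wq hq hm f ≠ 0 := by simpa using hf0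
  have e3 : ∀ E : Divisor (AlgebraicClosure ℚ) (modularFunctionFieldBar (m * q)),
      n • (SemilinearAut.ofAlgAut (wq hq hm) • E) = SemilinearAut.ofAlgAut (wq hq hm) • (n • E) :=
    fun E => smul_comm _ _ _
  rw [e3, ← map_nsmul, ← map_nsmul, e3, hf, heckeDiv_div hf0, smul_div, smul_div,
    SemilinearAut.ofAlgAut_smul, SemilinearAut.ofAlgAut_smul, heckeDiv_div hw0, TEll_wq hq hm hℓ]

/-- `w_q` commutes with `T_ℓ` on torsion classes. -/
theorem wJ_hecke (hq : q.Prime) (hm : ¬ q ∣ m) (ℓ : Nat.Primes) (hℓ : ¬ (ℓ : ℕ) ∣ m * q)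
    {n : ℕ} (hn : n ≠ 0) (x : JZero (m * q)) (hx : n • x = 0) :
    wJ hq hm (heckeOperatorBar (m * q) ℓ x) = heckeOperatorBar (m * q) ℓ (wJ hq hm x) := by
  haveI : NeZero (ℓ : ℕ) := ⟨ℓ.2.ne_zero⟩
  obtain ⟨D, rfl⟩ := Pic0.mk_surjective x
  obtain ⟨f, hf0, hf⟩ := exists_div_of_nsmul_eq_zero hx
  obtain ⟨D1, hD1, e1⟩ := heckeOperatorBar_mk ℓ D
  obtain ⟨D2, hD2, e2⟩ := heckeOperatorBar_mk ℓ
    (SemilinearAut.degZeroSMulHom (SemilinearAut.ofAlgAut (wq hq hm)) D)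
  have hqℓ : Nat.Coprime q ℓ := ((Nat.Prime.coprime_iff_not_dvd ℓ.2).mpr
    fun h => hℓ (h.mul_left m)).symm
  rw [e1, wJ_mk, wJ_mk, e2]
  congr 1
  apply Subtype.ext
  rw [SemilinearAut.coe_degZeroSMulHom, hD1, hD2, SemilinearAut.coe_degZeroSMulHom]
  exact smul_heckeDiv hq hm ℓ hqℓ hn _ hf0 hf

theorem wJ_galois (hq : q.Prime) (hm : ¬ q ∣ m)
    (σ : AlgebraicClosure ℚ ≃ₐ[ℚ] AlgebraicClosure ℚ) (x : JZero (m * q)) :
    wJ hq hm (σ • x) = σ • wJ hq hm x := by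
  rw [wJ_apply, wJ_apply, galois_smul_pic0_def, galois_smul_pic0_def, smul_smul, smul_smul]
  congr 1
  apply Subtype.ext
  refine Prod.ext (RingEquiv.ext fun f => ?_) (RingEquiv.ext fun c => rfl)
  exact Fermat.Agent.TwoGauss.wq_arithmetic hq hm σ f

end Fermat.Agent.QX4

end
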