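import Fermat.Agent.S37
import Fermat.Agent.S30_Reduction
import Fermat.Agent.S35_Final

/-!
# S37 for all levels and S30, from the landed results
-/

set_option autoImplicit false
set_option linter.style.haveILetI false

noncomputable section

open ModularCurve Polynomial CuspForm Fermat.Agent.GalRep Fermat.Agent.S35aux
open Fermat.Agent.Cofaith (smulCommClass_JZero)

namespace Fermat.Agent.QX4

/-- S37 for all levels and primes. -/
theorem allSpec : AllSpec := by
  intro N p _
  letI := heckeModuleBar N
  haveI := smulCommClass_JZero N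
  intro _
  exact Fermat.Agent.S37.result N p (Fermat.Agent.HeckeComm.heckeOperatorsCommuteBar N)
    (smulCommClass_JZero N)

/-- S30 (the statement of row 29). -/
theorem stmt30 : Stmt30 := by
  intro p _ N _ S hpS hNS 𝒪' _ _ _ _ _ _ hp𝒪' χ
  have hp : p.Prime := Fact.out
  letI := heckeModuleBar N
  haveI := smulCommClass_JZero N
  exact Fermat.Agent.S30aux.statement_of_ESInput
    (Fermat.Agent.Cofaith.esInput_JZero N hp (↑S : Set ℕ)
      (fun ℓ hℓ hd => by simpa using hNS ℓ hℓ hd) (allSpec N p hp)) hpS hNS 𝒪' hp𝒪' χ

end Fermat.Agent.QX4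

end
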