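import Fermat.Agent.TwoGauss.Uncond
import Fermat.Agent.QX4.Spec

/-!
# The relation on toric classes for all concrete two-component data
-/

set_option autoImplicit false
set_option linter.style.haveILetI false

noncomputable section

open ModularCurve AlgebraicCurve Fermat.Agent.GaussVal
open scoped Fermat.Agent.GaussVal

namespace Fermat.Agent.QX4

theorem allTCore : AllTCore := by
  intro m q _ _ hm A _ _ hA H3 H2
  have hq : q.Prime := Fact.out
  haveI : IsAlgClosed (IsLocalRing.ResidueField A) := inferInstance
  haveI : FF.IsFF (AlgebraicClosure ℚ) (modularFunctionFieldBar m) := TwoGauss.isFF_m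
  haveI : FF.IsFF (IsLocalRing.ResidueField A)
    (modularFunctionFieldFullC (IsLocalRing.ResidueField A) m) := TwoGauss.isFF_m' (m := m) H3
  haveI : FF.IsFF (AlgebraicClosure ℚ) (modularFunctionFieldBar (m * q)) := TwoGauss.isFF_m
  intro g hg n hn x _ hx
  exact TwoComp.Data.smul_smul_of_toric hq.two_le (TwoGauss.arch_mkData hq hm hA H3 H2) hn hg hx

end Fermat.Agent.QX4

end
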