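import Fermat.Agent.QX4.Inst
import Fermat.Agent.TwoGauss.ActInst
import Fermat.Agent.GoodRed.Level
import Fermat.Agent.S18.Concl
import Fermat.Agent.TwoComp.Toric

/-!
# The geometric input at `q` from the relation on toric classes
-/

set_option autoImplicit false
set_option linter.style.haveILetI false
set_option linter.unusedSectionVars false

noncomputable section

open ModularCurve AlgebraicCurve IntermediateField
open Fermat.Agent.GaussVal Fermat.Agent.GalRep Fermat.Agent.FF
open scoped Fermat.Agent.GaussVal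
open Fermat.Agent.TwoGauss (wq mkData)

namespace Fermat.Agent.QX4

section Split

variable {m q : ℕ} [NeZero m] [NeZero q] [Fact q.Prime] {hm : ¬ q ∣ m}
    {A : ValuationSubring (AlgebraicClosure ℚ)}
    [CharP (IsLocalRing.ResidueField A) q] {X : DataAt m q A}

/-- splitting of `w x` at the first component is splitting of `x` at the second component. -/
theorem Compat.split₂ (C : Compat hm A X) {n : ℕ} (x : JZero (m * q))
    (h : Split X.O₁ X.ρ₁ n (wJ Fact.out hm x)) : Split X.O₂ X.ρ₂ n x := by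
  obtain ⟨D, f, hf, u, hxD, hu, hord, hρ⟩ := h
  have hww : ∀ g : modularFunctionFieldBar (m * q), wq Fact.out hm (wq Fact.out hm g) = g :=
    Fermat.Agent.TwoGauss.wq_wq Fact.out hm
  have h2 : wq Fact.out hm f ∈ X.O₂ := by
    rw [C.mem_O₂, hww]
    exact (C.mem_O₁ f).mp hf
  refine ⟨SemilinearAut.degZeroSMulHom (SemilinearAut.ofAlgAut (wq Fact.out hm)) D,
    wq Fact.out hm f, h2, u, ?_, hu, fun v => ?_, ?_⟩
  · rw [← wJ_mk, ← hxD, wJ_wJ]
  · rw [SemilinearAut.coe_degZeroSMulHom, SemilinearAut.divisor_smul_apply, ← hord]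
    have e2 := SemilinearAut.ord_smul (SemilinearAut.ofAlgAut (wq Fact.out hm))
      ((SemilinearAut.ofAlgAut (wq Fact.out hm))⁻¹ • v) f
    rwa [smul_inv_smul, SemilinearAut.ofAlgAut_smul] at e2
  · rw [← hρ]
    apply Subtype.ext
    rw [C.coe_ρ₂, C.coe_ρ₁]
    congr 1
    apply Subtype.ext
    change ((wq Fact.out hm (wq Fact.out hm f) : modularFunctionFieldBar (m * q)) :
      LaurentSeries (AlgebraicClosure ℚ)) = _
    rw [hww]

/-- `TorusInput` from the relation on toric classes. -/
theorem Compat.torusInput (C : Compat hm A X)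
    (H : ∀ φ : GQ, A.IsFrobeniusAt φ q → ∀ n : ℕ, 0 < n → Nat.Coprime n q → ∀ x : JZero (m * q),
      n • x = 0 → X.Toric n x → φ • φ • x = q ^ 2 • x) : TorusInput hm X :=
  fun φ hφ n hn hnq x hx h1 h2 => H φ hφ n hn hnq x hx ⟨h1, C.split₂ x h2⟩

end Split

/-- **(T)** as an abstract statement on two-component data. -/
def TCore {K Fm F k F' : Type*} [Field K] [Field Fm] [Algebra K Fm] [Field F] [Algebra K F]
    [Field k] [Field F'] [Algebra k F'] {q : ℕ} [ExpChar k q] (D : TwoComp.Data K Fm F k F' q) :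
    Prop :=
  ∀ g : SemilinearAut K F, D.ActS g (D.σ : F' →+* F') (frobenius k q) → ∀ n : ℕ, (n : k) ≠ 0 →
    ∀ x : Pic0 K F, n • x = 0 → D.Toric n x → g • g • x = q ^ 2 • x

/-- The geometric input at the auxiliary level. -/
theorem geoInput_aux {m q : ℕ} [NeZero m] [Fact q.Prime] (hm : ¬ q ∣ m)
    [NeZero (GoodRed.auxLevel q m)]
    (HT : ∀ (A : ValuationSubring (AlgebraicClosure ℚ)) [CharP (IsLocalRing.ResidueField A) q]
      [PerfectRing (IsLocalRing.ResidueField A) q] (hA : A.LiesOverPrime q)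
      (H3 : S18aux.DegThm (IsLocalRing.ResidueField A) (GoodRed.auxLevel q m)) H2,
      TCore (mkData Fact.out (GoodRed.not_dvd_auxLevel Fact.out hm) hA H3 H2)) :
    GeoInput (m := GoodRed.auxLevel q m) (GoodRed.not_dvd_auxLevel Fact.out hm) := by
  intro A hA hch
  have hq : q.Prime := Fact.out
  haveI : PerfectRing (IsLocalRing.ResidueField A) q := PerfectField.toPerfectRing q
  have H3 : S18aux.DegThm (IsLocalRing.ResidueField A) (GoodRed.auxLevel q m) :=
    S18aux.degThm _ (NeZero.ne _)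
      (S18aux.natCast_ne_zero hq hA (GoodRed.not_dvd_auxLevel hq hm))
  have H2 := GoodRed.genus_le_aux hq hA m hm (fun M hM h => S18aux.degThm _ hM h)
  refine ⟨mkData hq (GoodRed.not_dvd_auxLevel hq hm) hA H3 H2, compat_mkData _ _ _ _ _,
    (compat_mkData _ _ _ _ _).torusInput fun φ hφ n hn hnq x hx ht => ?_⟩
  have hact := Fermat.Agent.TwoGauss.act_mkData_frobenius hq
    (GoodRed.not_dvd_auxLevel hq hm) hA H3 H2 hφ
  have hnk : (n : IsLocalRing.ResidueField A) ≠ 0 := by
    rw [Ne, CharP.cast_eq_zero_iff _ q]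
    intro h
    exact hq.one_lt.ne' (Nat.eq_one_of_dvd_coprimes hnq h dvd_rfl)
  exact HT A hA H3 H2 _ hact n hnk x hx ht

end Fermat.Agent.QX4

end
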