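import Fermat.Agent.QX4.Commute
import Fermat.Agent.HeckeComm.Galois
import Fermat.Agent.S37aux.Concrete

/-!
# Raising the auxiliary level: `π^* : J₀(mq) → J₀(m'q)`
-/

set_option autoImplicit false
set_option linter.style.haveILetI false
set_option linter.unusedSectionVars false

noncomputable section

open ModularCurve AlgebraicCurve IntermediateField Fermat.Agent.TEll Fermat.Agent.X0Emb
open Fermat.Agent.RR (div div_apply)
open Fermat.Agent.TwoGauss (wq wq_jdB Dv jdB FB_algHom_ext)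
open Fermat.Agent.S37aux (inclBar coe_inclBar)

namespace Fermat.Agent.QX4

section General

variable {K F F' F'' : Type*} [Field K] [Field F] [Algebra K F] [Field F'] [Algebra K F']
  [Field F''] [Algebra K F''] [HasPrincipalDivisors K F] [HasPrincipalDivisors K F']

/-- two additive maps on divisors which agree on principal divisors agree on torsion. -/
theorem eq_on_torsion {Φ Ψ : Divisor K F →+ Divisor K F''}
    (h : ∀ f : F, f ≠ 0 → Φ (div f) = Ψ (div f)) {n : ℕ} (hn : n ≠ 0) {D : Divisor K F} {f : F}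
    (hf : f ≠ 0) (hD : n • D = div f) : Φ D = Ψ D := by
  apply divisor_nsmul_inj hn
  rw [← map_nsmul, ← map_nsmul, hD, h f hf]

theorem div_pow (f : F) (d : ℕ) : (div (f ^ d) : Divisor K F) = d • div f := by
  ext v
  rw [div_apply, Finsupp.smul_apply, div_apply, ← zpow_natCast, v.ord_zpow]
  simp

/-- the pull-back of degree zero divisors. -/
def pullDegZero (φ : F →ₐ[K] F') (hφ : φ.toRingHom.IsIntegral)
    (hFI : FundamentalIdentityAlong K φ hφ) :
    Divisor.degZero (K := K) (F := F) →+ Divisor.degZero (K := K) (F := F') :=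
  ((Divisor.pullbackAlong φ hφ).domRestrict (Divisor.degZero (K := K) (F := F))).codRestrict _
    (fun D => Divisor.pullbackAlong_mem_degZero φ hφ hFI D.2)

@[simp]
theorem coe_pullDegZero (φ : F →ₐ[K] F') (hφ : φ.toRingHom.IsIntegral)
    (hFI : FundamentalIdentityAlong K φ hφ) (D : Divisor.degZero (K := K) (F := F)) :
    (pullDegZero φ hφ hFI D : Divisor K F') = Divisor.pullbackAlong φ hφ (D : Divisor K F) := rfl

/-- the pull-back on `Pic⁰`. -/
def pullPic0 (φ : F →ₐ[K] F') (hφ : φ.toRingHom.IsIntegral)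
    (hFI : FundamentalIdentityAlong K φ hφ) : Pic0 K F →+ Pic0 K F' :=
  QuotientAddGroup.map _ _ (pullDegZero φ hφ hFI) (by
    rintro ⟨D, hD0⟩ hD
    simp only [AddSubgroup.mem_addSubgroupOf] at hD ⊢
    exact Divisor.isPrincipal_pullbackAlong φ hφ hD)

@[simp]
theorem pullPic0_mk (φ : F →ₐ[K] F') (hφ : φ.toRingHom.IsIntegral)
    (hFI : FundamentalIdentityAlong K φ hφ) (D : Divisor.degZero (K := K) (F := F)) :
    pullPic0 φ hφ hFI (Pic0.mk D) = Pic0.mk (pullDegZero φ hφ hFI D) := rfl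

/-- the kernel of the pull-back on torsion is killed by the degree. -/
theorem smul_eq_zero_of_pullPic0 (φ : F →ₐ[K] F') (hφ : φ.toRingHom.IsIntegral)
    (hFI : FundamentalIdentityAlong K φ hφ) (hfin : FiniteAlong K φ)
    (hN : NormFormulaAlong K φ hfin) {n : ℕ} (hn : n ≠ 0) (x : Pic0 K F) (hx : n • x = 0)
    (h : pullPic0 φ hφ hFI x = 0) : finrankAlong K φ • x = 0 := by
  obtain ⟨D, rfl⟩ := Pic0.mk_surjective x
  obtain ⟨f, hf0, hf⟩ := exists_div_of_nsmul_eq_zero hx
  rw [pullPic0_mk] at h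
  obtain ⟨g, hg0, hg⟩ := (mk_eq_zero_iff _).mp h
  have hg' : Divisor.pullbackAlong φ hφ (D : Divisor K F) = div g := by
    ext v
    rw [div_apply]
    exact hg v
  have h1 : Divisor.pushforwardAlong φ hφ (Divisor.pullbackAlong φ hφ (D : Divisor K F)) =
      finrankAlong K φ • (D : Divisor K F) := by
    refine eq_on_torsion (Φ := (Divisor.pushforwardAlong φ hφ).comp
      (Divisor.pullbackAlong φ hφ)) (Ψ := nsmulAddMonoidHom (finrankAlong K φ)) ?_ hn hf0 hf
    intro e he
    have he' : φ e ≠ 0 := by simpa using he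
    rw [AddMonoidHom.comp_apply, HeckeComm.pullbackAlong_div, push_div φ hφ hfin hN he',
      normAlong_algebraMap, div_pow]
    rfl
  have h2 : finrankAlong K φ • Pic0.mk D = Pic0.mk (finrankAlong K φ • D) := rfl
  rw [h2, mk_eq_zero_iff]
  refine ⟨normAlong φ g, normAlong_ne_zero φ hfin hg0, fun v => ?_⟩
  have h3 : ((finrankAlong K φ • D : Divisor.degZero (K := K) (F := F)) : Divisor K F) =
      finrankAlong K φ • (D : Divisor K F) := rfl
  rw [h3, ← h1, hg', push_div φ hφ hfin hN hg0, div_apply]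

end General

section Modular

variable {m m' q : ℕ} [NeZero m] [NeZero m'] [NeZero q]

theorem inclBar_jdB {N N' : ℕ} [NeZero N] [NeZero N'] (h : N ∣ N') (d : ℕ) (hd : d ∣ N)
    (hd' : d ∣ N') :
    inclBar h (jdB (AlgebraicClosure ℚ) N ⟨d, hd⟩) = jdB (AlgebraicClosure ℚ) N' ⟨d, hd'⟩ := by
  apply Subtype.ext
  rw [coe_inclBar, Fermat.Agent.TwoGauss.coe_jdB, Fermat.Agent.TwoGauss.coe_jdB]

/-- `w_q` is compatible with the change of the level prime to `q`. -/
theorem wq_inclBar (hq : q.Prime) (hm : ¬ q ∣ m) (hm' : ¬ q ∣ m') (hmm : m ∣ m')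
    (f : modularFunctionFieldBar (m * q)) :
    wq hq hm' (inclBar (Nat.mul_dvd_mul_right hmm q) f) =
      inclBar (Nat.mul_dvd_mul_right hmm q) (wq hq hm f) := by
  have h : (wq hq hm' : modularFunctionFieldBar (m' * q) →ₐ[AlgebraicClosure ℚ]
      modularFunctionFieldBar (m' * q)).comp (inclBar (Nat.mul_dvd_mul_right hmm q)) =
      (inclBar (Nat.mul_dvd_mul_right hmm q)).comp
        (wq hq hm : modularFunctionFieldBar (m * q) →ₐ[AlgebraicClosure ℚ]
          modularFunctionFieldBar (m * q)) := by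
    apply FB_algHom_ext
    rintro ⟨d, hd⟩
    change wq hq hm' (inclBar (Nat.mul_dvd_mul_right hmm q) (jdB _ _ ⟨d, hd⟩)) =
      inclBar (Nat.mul_dvd_mul_right hmm q) (wq hq hm (jdB _ _ ⟨d, hd⟩))
    rw [inclBar_jdB _ d hd (hd.trans (Nat.mul_dvd_mul_right hmm q)), wq_jdB, wq_jdB]
    by_cases hqd : q ∣ d
    · obtain ⟨e, rfl⟩ := hqd
      have he : e ∣ m := Fermat.Agent.TwoGauss.dvd_m_of_mul hq hd
      rw [Fermat.Agent.TwoGauss.swapD_mul hq hm' _ ((he.trans hmm).trans (dvd_mul_right m' q)),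
        Fermat.Agent.TwoGauss.swapD_mul hq hm hd (he.trans (dvd_mul_right m q)),
        inclBar_jdB _ e _ ((he.trans hmm).trans (dvd_mul_right m' q))]
    · have he : d ∣ m := Fermat.Agent.TwoGauss.dvd_m_of_not_dvd hq hqd hd
      rw [Fermat.Agent.TwoGauss.swapD_of_dvd_m hq hm' (he.trans hmm) _
          (Fermat.Agent.TwoGauss.mul_dvd_level (he.trans hmm)),
        Fermat.Agent.TwoGauss.swapD_of_dvd_m hq hm he hd
          (Fermat.Agent.TwoGauss.mul_dvd_level he),
        inclBar_jdB _ (q * d) _ (Fermat.Agent.TwoGauss.mul_dvd_level (he.trans hmm))]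
  exact DFunLike.congr_fun h f

/-- the norm along `α` is compatible with the change of the level prime to `q`. -/
theorem normAlong_inclBar (hq : q.Prime) (hm : ¬ q ∣ m) (hm' : ¬ q ∣ m') (hmm : m ∣ m')
    (f : modularFunctionFieldBar (m * q)) :
    normAlong (heckeAlphaBar (AlgebraicClosure ℚ) m' q)
        (inclBar (Nat.mul_dvd_mul_right hmm q) f) =
      inclBar hmm (normAlong (heckeAlphaBar (AlgebraicClosure ℚ) m q) f) := by
  apply Subtype.ext
  rw [coe_normAlong_bar hq hm', wq_inclBar hq hm hm' hmm, coe_inclBar, coe_inclBar, coe_inclBar,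
    coe_normAlong_bar hq hm]

/-- `π^*` on Jacobians. -/
def piUp {N N' : ℕ} [NeZero N] [NeZero N'] (h : N ∣ N') : JZero N →+ JZero N' :=
  pullPic0 (inclBar h) (FF.isIntegralAlong _) (FF.fundamentalIdentityAlong _ _)

theorem piUp_mk {N N' : ℕ} [NeZero N] [NeZero N'] (h : N ∣ N')
    (D : Divisor.degZero (K := AlgebraicClosure ℚ) (F := modularFunctionFieldBar N)) :
    piUp h (Pic0.mk D) = Pic0.mk (pullDegZero (inclBar h) (FF.isIntegralAlong _)
      (FF.fundamentalIdentityAlong _ _) D) := rfl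

theorem smul_eq_zero_of_piUp {N N' : ℕ} [NeZero N] [NeZero N'] (h : N ∣ N') {n : ℕ} (hn : n ≠ 0)
    (x : JZero N) (hx : n • x = 0) (h0 : piUp h x = 0) :
    finrankAlong (AlgebraicClosure ℚ) (inclBar h) • x = 0 :=
  smul_eq_zero_of_pullPic0 (inclBar h) (FF.isIntegralAlong _) (FF.fundamentalIdentityAlong _ _)
    (FF.finiteAlong _) (FF.normFormulaAlong _ _) hn x hx h0

/-- `α_* π^* = π^* α_*` on torsion. -/
theorem pushA_piUp (hq : q.Prime) (hm : ¬ q ∣ m) (hm' : ¬ q ∣ m') (hmm : m ∣ m') {n : ℕ}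
    (hn : n ≠ 0) (x : JZero (m * q)) (hx : n • x = 0) :
    pushA m' q (piUp (Nat.mul_dvd_mul_right hmm q) x) = piUp hmm (pushA m q x) := by
  obtain ⟨D, rfl⟩ := Pic0.mk_surjective x
  obtain ⟨f, hf0, hf⟩ := exists_div_of_nsmul_eq_zero hx
  rw [piUp_mk, pushA_mk, pushA_mk, piUp_mk]
  congr 1
  apply Subtype.ext
  rw [coe_pushDegZero, coe_pullDegZero, coe_pullDegZero, coe_pushDegZero]
  refine eq_on_torsion
    (Φ := (Divisor.pushforwardAlong (heckeAlphaBar (AlgebraicClosure ℚ) m' q) (intA m' q)).comp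
      (Divisor.pullbackAlong (inclBar (Nat.mul_dvd_mul_right hmm q)) (FF.isIntegralAlong _)))
    (Ψ := (Divisor.pullbackAlong (inclBar hmm) (FF.isIntegralAlong _)).comp
      (Divisor.pushforwardAlong (heckeAlphaBar (AlgebraicClosure ℚ) m q) (intA m q)))
    ?_ hn hf0 hf
  intro e he
  have he' : inclBar (Nat.mul_dvd_mul_right hmm q) e ≠ 0 := by simpa using he
  rw [AddMonoidHom.comp_apply, AddMonoidHom.comp_apply, HeckeComm.pullbackAlong_div,
    push_div _ (intA m' q) (finAlpha m' q) (nfAlpha m' q) he',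
    push_div _ (intA m q) (finAlpha m q) (nfAlpha m q) he, HeckeComm.pullbackAlong_div,
    normAlong_inclBar hq hm hm' hmm]

theorem smul_pull_div (hq : q.Prime) (hm : ¬ q ∣ m) (hm' : ¬ q ∣ m') (hmm : m ∣ m')
    (e : modularFunctionFieldBar (m * q)) :
    SemilinearAut.ofAlgAut (wq hq hm') •
      Divisor.pullbackAlong (inclBar (Nat.mul_dvd_mul_right hmm q)) (FF.isIntegralAlong _)
        (div e) =
    Divisor.pullbackAlong (inclBar (Nat.mul_dvd_mul_right hmm q)) (FF.isIntegralAlong _)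
      (SemilinearAut.ofAlgAut (wq hq hm) • (div e : Divisor (AlgebraicClosure ℚ) _)) := by
  rw [HeckeComm.pullbackAlong_div, smul_div, smul_div, HeckeComm.pullbackAlong_div,
    SemilinearAut.ofAlgAut_smul, SemilinearAut.ofAlgAut_smul, wq_inclBar hq hm hm' hmm]

/-- `w_q π^* = π^* w_q` on torsion. -/
theorem wJ_piUp (hq : q.Prime) (hm : ¬ q ∣ m) (hm' : ¬ q ∣ m') (hmm : m ∣ m') {n : ℕ}
    (hn : n ≠ 0) (x : JZero (m * q)) (hx : n • x = 0) :
    wJ hq hm' (piUp (Nat.mul_dvd_mul_right hmm q) x) =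
      piUp (Nat.mul_dvd_mul_right hmm q) (wJ hq hm x) := by
  obtain ⟨D, rfl⟩ := Pic0.mk_surjective x
  obtain ⟨f, hf0, hf⟩ := exists_div_of_nsmul_eq_zero hx
  rw [piUp_mk, wJ_mk, wJ_mk, piUp_mk]
  congr 1
  apply Subtype.ext
  rw [SemilinearAut.coe_degZeroSMulHom, coe_pullDegZero, coe_pullDegZero,
    SemilinearAut.coe_degZeroSMulHom]
  exact eq_on_torsion
    (Φ := (DistribSMul.toAddMonoidHom _ (SemilinearAut.ofAlgAut (wq hq hm'))).comp
      (Divisor.pullbackAlong (inclBar (Nat.mul_dvd_mul_right hmm q)) (FF.isIntegralAlong _)))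
    (Ψ := (Divisor.pullbackAlong (inclBar (Nat.mul_dvd_mul_right hmm q))
      (FF.isIntegralAlong _)).comp
        (DistribSMul.toAddMonoidHom _ (SemilinearAut.ofAlgAut (wq hq hm))))
    (fun e _ => smul_pull_div hq hm hm' hmm e) hn hf0 hf

theorem inclBar_galois {N N' : ℕ} [NeZero N] [NeZero N'] (h : N ∣ N')
    (σ : AlgebraicClosure ℚ ≃ₐ[ℚ] AlgebraicClosure ℚ) (e : modularFunctionFieldBar N) :
    arithmeticGalois (modularFunctionFieldFull N') σ • inclBar h e =
      inclBar h (arithmeticGalois (modularFunctionFieldFull N) σ • e) := by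
  apply Subtype.ext
  rw [coe_inclBar, coe_arithmeticGalois_smul, coe_arithmeticGalois_smul, coe_inclBar]

theorem galois_pull_div {N N' : ℕ} [NeZero N] [NeZero N'] (h : N ∣ N')
    (σ : AlgebraicClosure ℚ ≃ₐ[ℚ] AlgebraicClosure ℚ) (e : modularFunctionFieldBar N) :
    Divisor.pullbackAlong (inclBar h) (FF.isIntegralAlong _)
      (arithmeticGalois (modularFunctionFieldFull N) σ •
        (div e : Divisor (AlgebraicClosure ℚ) _)) =
    arithmeticGalois (modularFunctionFieldFull N') σ •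
      Divisor.pullbackAlong (inclBar h) (FF.isIntegralAlong _) (div e) := by
  rw [smul_div, HeckeComm.pullbackAlong_div, HeckeComm.pullbackAlong_div, smul_div,
    inclBar_galois]

theorem galois_pull {N N' : ℕ} [NeZero N] [NeZero N'] (h : N ∣ N')
    (σ : AlgebraicClosure ℚ ≃ₐ[ℚ] AlgebraicClosure ℚ) {n : ℕ} (hn : n ≠ 0)
    (D : Divisor (AlgebraicClosure ℚ) (modularFunctionFieldBar N))
    {f : modularFunctionFieldBar N} (hf0 : f ≠ 0) (hf : n • D = div f) :
    Divisor.pullbackAlong (inclBar h) (FF.isIntegralAlong _)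
      (arithmeticGalois (modularFunctionFieldFull N) σ • D) =
    arithmeticGalois (modularFunctionFieldFull N') σ •
      Divisor.pullbackAlong (inclBar h) (FF.isIntegralAlong _) D :=
  eq_on_torsion
    (Φ := (Divisor.pullbackAlong (inclBar h) (FF.isIntegralAlong _)).comp
        (DistribSMul.toAddMonoidHom _ (arithmeticGalois (modularFunctionFieldFull N) σ)))
    (Ψ := (DistribSMul.toAddMonoidHom _ (arithmeticGalois (modularFunctionFieldFull N') σ)).comp
      (Divisor.pullbackAlong (inclBar h) (FF.isIntegralAlong _)))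
    (fun e _ => galois_pull_div h σ e) hn hf0 hf

/-- `π^*` is Galois equivariant on torsion. -/
theorem piUp_galois {N N' : ℕ} [NeZero N] [NeZero N'] (h : N ∣ N')
    (σ : AlgebraicClosure ℚ ≃ₐ[ℚ] AlgebraicClosure ℚ) {n : ℕ}
    (hn : n ≠ 0) (x : JZero N) (hx : n • x = 0) :
    piUp h (σ • x) = σ • piUp h x := by
  obtain ⟨D, rfl⟩ := Pic0.mk_surjective x
  obtain ⟨f, hf0, hf⟩ := exists_div_of_nsmul_eq_zero hx
  rw [galois_smul_pic0_def, galois_smul_pic0_def, SemilinearAut.pic0_smul_mk, piUp_mk, piUp_mk,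
    SemilinearAut.pic0_smul_mk]
  exact congrArg Pic0.mk (Subtype.ext (galois_pull h σ hn _ hf0 hf))

end Modular

end Fermat.Agent.QX4
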