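import Fermat.Agent.QX4.Commute
import Fermat.Agent.GalRep.Input
import Fermat.Agent.HeckeComm.Commute
import Fermat.Agent.HeckeComm.Galois
import Fermat.Agent.Cofaith.Main
import Fermat.Agent.S35_Assembly

/-!
# Hecke polynomials on the torsion of `J₀(mq)`
-/

set_option autoImplicit false
set_option linter.style.haveILetI false
set_option linter.unusedSectionVars false

noncomputable section

open ModularCurve AlgebraicCurve IntermediateField Fermat.Agent.TEll Fermat.Agent.X0Emb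
open Fermat.Agent.GalRep

namespace Fermat.Agent.QX4

section General

variable {J J' : Type*} [AddCommGroup J] [Module HeckeAlg J] [AddCommGroup J'] [Module HeckeAlg J']

/-- An additive map commuting with the `T_ℓ`, `ℓ ∉ S`, on `n`-torsion commutes with all Hecke
polynomials away from `S` on `n`-torsion. -/
theorem map_inclS_smul (α : J →+ J') (S : Set ℕ) (n : ℕ)
    (h : ∀ ℓ : Nat.Primes, (ℓ : ℕ) ∉ S → ∀ x : J, n • x = 0 →
      α (heckeGen ℓ • x) = heckeGen ℓ • α x)
    (t : HeckeAlgS S) : ∀ x : J, n • x = 0 → α (inclS S t • x) = inclS S t • α x := by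
  induction t using MvPolynomial.induction_on with
  | C a =>
    intro x _
    have e : inclS S (MvPolynomial.C a) = ((a : ℤ) : HeckeAlg) := by
      rw [inclS, MvPolynomial.rename_C]
      exact (eq_intCast (MvPolynomial.C (R := ℤ) (σ := Nat.Primes)) a)
    rw [e, Int.cast_smul_eq_zsmul, Int.cast_smul_eq_zsmul, map_zsmul]
  | add p r hp hr =>
    intro x hx
    rw [map_add, add_smul, add_smul, map_add, hp x hx, hr x hx]
  | mul_X p ℓ hp =>
    intro x hx
    have e : inclS S (MvPolynomial.X ℓ) = heckeGen ℓ.1 := by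
      rw [inclS, MvPolynomial.rename_X]; rfl
    have hx' : n • (heckeGen ℓ.1 • x) = 0 := by
      rw [smul_comm, hx, smul_zero]
    rw [map_mul, mul_smul, mul_smul, e, hp _ hx', h ℓ.1 ℓ.2 x hx]

end General

variable {m q : ℕ} [NeZero m] [NeZero q]

theorem pushA_inclS (hq : q.Prime) (hm : ¬ q ∣ m) (S : Set ℕ)
    (hS : ∀ ℓ : ℕ, ℓ.Prime → ℓ ∣ m * q → ℓ ∈ S) {n : ℕ} (hn : n ≠ 0) (t : HeckeAlgS S)
    (x : JZero (m * q)) (hx : n • x = 0) :
    pushA m q ((letI := heckeModuleBar (m * q); inclS S t • x)) =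
      (letI := heckeModuleBar m; inclS S t • pushA m q x) := by
  letI i1 := heckeModuleBar (m * q)
  letI i2 := heckeModuleBar m
  refine map_inclS_smul (pushA m q) S n (fun ℓ hℓ x hx => ?_) t x hx
  rw [heckeModuleBar_heckeGen_smul (HeckeComm.heckeOperatorsCommuteBar (m * q)) ℓ x,
    heckeModuleBar_heckeGen_smul (HeckeComm.heckeOperatorsCommuteBar m) ℓ (pushA m q x)]
  exact pushA_hecke hq hm ℓ (fun h => hℓ (hS ℓ ℓ.2 h)) hn x hx

theorem wJ_inclS (hq : q.Prime) (hm : ¬ q ∣ m) (S : Set ℕ)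
    (hS : ∀ ℓ : ℕ, ℓ.Prime → ℓ ∣ m * q → ℓ ∈ S) {n : ℕ} (hn : n ≠ 0) (t : HeckeAlgS S)
    (x : JZero (m * q)) (hx : n • x = 0) :
    letI := heckeModuleBar (m * q)
    wJ hq hm (inclS S t • x) = inclS S t • wJ hq hm x := by
  letI i1 := heckeModuleBar (m * q)
  refine map_inclS_smul (wJ hq hm) S n (fun ℓ hℓ x hx => ?_) t x hx
  rw [heckeModuleBar_heckeGen_smul (HeckeComm.heckeOperatorsCommuteBar (m * q)) ℓ x,
    heckeModuleBar_heckeGen_smul (HeckeComm.heckeOperatorsCommuteBar (m * q)) ℓ (wJ hq hm x)]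
  exact wJ_hecke hq hm ℓ (fun h => hℓ (hS ℓ ℓ.2 h)) hn x hx

end Fermat.Agent.QX4

end
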