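import Fermat.Agent.TEll.Gauss

/-!
# Gauss reduction and the norm `secNorm`
-/

set_option autoImplicit false
set_option linter.style.haveILetI false

noncomputable section

open HahnSeries ModularCurve Fermat.Agent.GaussVal Fermat.Agent.TEll

namespace Fermat.Agent.QX4

section Gauss

variable {K : Type*} [Field K] (A : ValuationSubring K) (q : ℕ) [NeZero q]

theorem redS_secNorm_ne_zero {Y : LaurentSeries A} (hY : redS A Y ≠ 0) :
    redS A (secNorm A q Y) ≠ 0 := by
  rw [redS, coeffMap_secNorm]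
  exact secNorm_ne_zero q hY

theorem secNorm_rel {y : LaurentSeries K} {Y₁ Y₂ : LaurentSeries A}
    (h : y * incl A Y₂ = incl A Y₁) :
    secNorm K q y * incl A (secNorm A q Y₂) = incl A (secNorm A q Y₁) := by
  rw [incl, coeffMap_secNorm, coeffMap_secNorm, ← map_mul, h]

theorem secNorm_mem_gaussSubring {y : LaurentSeries K} (hy : y ∈ gaussSubring A) :
    secNorm K q y ∈ gaussSubring A := by
  obtain ⟨Y₁, Y₂, hY, h⟩ := hy
  exact ⟨secNorm A q Y₁, secNorm A q Y₂, redS_secNorm_ne_zero A q hY, secNorm_rel A q h⟩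

/-- Gauss reduction commutes with `secNorm`. -/
theorem gaussRed_secNorm (y : gaussSubring A) :
    gaussRed A ⟨secNorm K q (y : LaurentSeries K), secNorm_mem_gaussSubring A q y.2⟩ =
      secNorm (IsLocalRing.ResidueField A) q (gaussRed A y) := by
  obtain ⟨Y₁, Y₂, hY, h⟩ := mem_gaussSubring.mp y.2
  have h1 := gaussRed_eq (y := ⟨secNorm K q (y : LaurentSeries K),
    secNorm_mem_gaussSubring A q y.2⟩) (redS_secNorm_ne_zero A q hY) (secNorm_rel A q h)
  have h2 := gaussRed_eq (y := y) hY h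
  have h3 : gaussRed A y * redS A Y₂ = redS A Y₁ := by
    rw [h2, div_mul_cancel₀ _ hY]
  rw [h1, div_eq_iff (redS_secNorm_ne_zero A q hY), redS, coeffMap_secNorm, coeffMap_secNorm,
    ← map_mul, h3]

theorem secNorm_algebraMap (c : K) :
    secNorm K q (algebraMap K (LaurentSeries K) c) = algebraMap K (LaurentSeries K) (c ^ q) := by
  have h : algebraMap K (LaurentSeries K) c = qExpand K q (algebraMap K (LaurentSeries K) c) := by
    rw [algebraMap_laurentSeries_eq_single, qExpand_single, mul_zero]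
  rw [h, secNorm_apply, ← algebraMap_cov, Algebra.norm_algebraMap, finrank_cov, map_pow]

end Gauss

section Frob

variable {K : Type*} [Field K] (A : ValuationSubring K) (q : ℕ) [Fact q.Prime]
  [CharP (IsLocalRing.ResidueField A) q]

/-- **Key computation**: reduction of `(c₁ c₂^q) y secNorm y'`. -/
theorem gaussRed_norm {y y' : LaurentSeries K} {c₁ c₂ : K}
    (h₁ : algebraMap K (LaurentSeries K) c₁ * y ∈ gaussSubring A)
    (h₂ : algebraMap K (LaurentSeries K) c₂ * y' ∈ gaussSubring A) :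
    haveI : NeZero q := ⟨(Fact.out : q.Prime).ne_zero⟩
    ∃ h : algebraMap K (LaurentSeries K) (c₁ * c₂ ^ q) * (y * secNorm K q y') ∈ gaussSubring A,
      gaussRed A ⟨_, h⟩ = gaussRed A ⟨_, h₁⟩ *
        coeffMap (frobenius (IsLocalRing.ResidueField A) q) (gaussRed A ⟨_, h₂⟩) := by
  haveI : NeZero q := ⟨(Fact.out : q.Prime).ne_zero⟩
  have e : algebraMap K (LaurentSeries K) (c₁ * c₂ ^ q) * (y * secNorm K q y') =
      (algebraMap K (LaurentSeries K) c₁ * y) *
        secNorm K q (algebraMap K (LaurentSeries K) c₂ * y') := by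
    rw [map_mul (secNorm K q), secNorm_algebraMap, map_mul]
    ring
  have h : algebraMap K (LaurentSeries K) (c₁ * c₂ ^ q) * (y * secNorm K q y') ∈
      gaussSubring A := by
    rw [e]
    exact mul_mem h₁ (secNorm_mem_gaussSubring A q h₂)
  refine ⟨h, ?_⟩
  rw [← secNorm_charP, ← gaussRed_secNorm A q ⟨_, h₂⟩, ← map_mul]
  congr 1
  exact Subtype.ext e

end Frob

section Scale

variable {K : Type*} [Field K] {A : ValuationSubring K} {ℓ : ℕ}
variable [CharZero K] [Algebra.IsAlgebraic ℚ K]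

/-- scaling of series in `intField K`. -/
theorem exists_scale_series (hℓ : ℓ.Prime) (hA : A.LiesOverPrime ℓ) {y : LaurentSeries K}
    (hy : y ∈ intField K) (hy0 : y ≠ 0) :
    ∃ c : K, c ≠ 0 ∧ ∃ h : algebraMap K (LaurentSeries K) c * y ∈ gaussSubring A,
      gaussRed A ⟨_, h⟩ ≠ 0 := by
  obtain ⟨a, ha, b, hb, hb0, hab⟩ := exists_div_of_mem_intField hy
  have ha0 : a ≠ 0 := by
    rw [← hab]; exact mul_ne_zero hy0 hb0
  obtain ⟨c, Y, _, hc0, hcY, hY, _⟩ := (scalable_of_mem_intAlg hℓ hA ha ha0).exists_primitive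
  obtain ⟨d, Z, _, hd0, hdZ, hZ, _⟩ := (scalable_of_mem_intAlg hℓ hA hb hb0).exists_primitive
  have hc0' : algebraMap K (LaurentSeries K) c ≠ 0 :=
    (map_ne_zero_iff _ (algebraMap K (LaurentSeries K)).injective).mpr hc0
  have hd0' : algebraMap K (LaurentSeries K) d ≠ 0 :=
    (map_ne_zero_iff _ (algebraMap K (LaurentSeries K)).injective).mpr hd0
  have hyeq : (algebraMap K (LaurentSeries K) (d / c) * y) * incl A Z = incl A Y := by
    apply mul_left_cancel₀ hc0'
    rw [hcY, ← hab, ← hdZ, map_div₀]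
    field_simp
  refine ⟨d / c, div_ne_zero hd0 hc0, ⟨Y, Z, hZ, hyeq⟩, ?_⟩
  rw [gaussRed_ne_zero_iff]
  exact ⟨Y, Z, hY, hZ, hyeq⟩

end Scale

end Fermat.Agent.QX4

end
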