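import Fermat.Agent.QX4.Norm
import Fermat.Agent.QX4.Commute
import Fermat.Agent.QX4.SecGauss
import Fermat.Agent.TwoComp.Defs
import Fermat.Agent.TwoGauss.Frob
import Fermat.Agent.TwoGauss.QExp
import Fermat.Agent.GaussVal.Modular
import Fermat.Agent.EC.RedFrob

/-!
# The norm relation for the concrete Gauss valuations
-/

set_option autoImplicit false
set_option linter.style.haveILetI false
set_option linter.unusedSectionVars false

noncomputable section

open ModularCurve AlgebraicCurve IntermediateField Fermat.Agent.TEll Fermat.Agent.X0Emb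
open Fermat.Agent.GaussVal
open scoped Fermat.Agent.GaussVal
open Fermat.Agent.TwoGauss (wq)

namespace Fermat.Agent.QX4

variable {m q : ℕ} [NeZero m] [NeZero q]

/-- Compatibility of a `TwoComp.Data` with the Gauss reductions of `q`-expansions. -/
structure Compat [Fact q.Prime] (hm : ¬ q ∣ m) (A : ValuationSubring (AlgebraicClosure ℚ))
    [CharP (IsLocalRing.ResidueField A) q]
    (X : TwoComp.Data (AlgebraicClosure ℚ) (modularFunctionFieldBar m)
      (modularFunctionFieldBar (m * q)) (IsLocalRing.ResidueField A)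
      (modularFunctionFieldFullC (IsLocalRing.ResidueField A) m) q) : Prop where
  mem_O₁ : ∀ x : modularFunctionFieldBar (m * q), x ∈ X.O₁ ↔
    (x : LaurentSeries (AlgebraicClosure ℚ)) ∈ gaussSubring A
  mem_O₂ : ∀ x : modularFunctionFieldBar (m * q), x ∈ X.O₂ ↔
    (wq Fact.out hm x : LaurentSeries (AlgebraicClosure ℚ)) ∈ gaussSubring A
  mem_O : ∀ x : modularFunctionFieldBar m, x ∈ X.G.O ↔
    (x : LaurentSeries (AlgebraicClosure ℚ)) ∈ gaussSubring A
  coe_ρ₁ : ∀ (x : modularFunctionFieldBar (m * q)) (h : x ∈ X.O₁),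
    (X.ρ₁ ⟨x, h⟩ : LaurentSeries (IsLocalRing.ResidueField A)) =
      gaussRed A ⟨(x : LaurentSeries (AlgebraicClosure ℚ)), (mem_O₁ x).mp h⟩
  coe_ρ₂ : ∀ (x : modularFunctionFieldBar (m * q)) (h : x ∈ X.O₂),
    (X.ρ₂ ⟨x, h⟩ : LaurentSeries (IsLocalRing.ResidueField A)) =
      gaussRed A ⟨(wq Fact.out hm x : LaurentSeries (AlgebraicClosure ℚ)), (mem_O₂ x).mp h⟩
  coe_ρ : ∀ (x : modularFunctionFieldBar m) (h : x ∈ X.G.O),
    (X.G.ρ ⟨x, h⟩ : LaurentSeries (IsLocalRing.ResidueField A)) =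
      gaussRed A ⟨(x : LaurentSeries (AlgebraicClosure ℚ)), (mem_O x).mp h⟩
  coe_σ : ∀ y : modularFunctionFieldFullC (IsLocalRing.ResidueField A) m,
    (X.σ y : LaurentSeries (IsLocalRing.ResidueField A)) =
      coeffMap (frobenius (IsLocalRing.ResidueField A) q)
        (y : LaurentSeries (IsLocalRing.ResidueField A))

variable [Fact q.Prime] {hm : ¬ q ∣ m} {A : ValuationSubring (AlgebraicClosure ℚ)}
    [CharP (IsLocalRing.ResidueField A) q]
    {X : TwoComp.Data (AlgebraicClosure ℚ) (modularFunctionFieldBar m)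
      (modularFunctionFieldBar (m * q)) (IsLocalRing.ResidueField A)
      (modularFunctionFieldFullC (IsLocalRing.ResidueField A) m) q}

theorem coe_smul_field {K : Type*} [Field K] {E : IntermediateField K (LaurentSeries K)} (c : K)
    (x : E) : ((c • x : E) : LaurentSeries K) = algebraMap K (LaurentSeries K) c * x := by
  rw [IntermediateField.coe_smul, Algebra.smul_def]

theorem wq_smul (hq : q.Prime) (hm : ¬ q ∣ m) (c : AlgebraicClosure ℚ)
    (f : modularFunctionFieldBar (m * q)) : wq hq hm (c • f) = c • wq hq hm f := by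
  rw [Algebra.smul_def, map_mul, AlgEquiv.commutes, ← Algebra.smul_def]

namespace Compat

variable (C : Compat hm A X)

include C in
theorem norm_formula (f : modularFunctionFieldBar (m * q)) (c₁ c₂ : AlgebraicClosure ℚ)
    (h₁ : c₁ • f ∈ X.O₁) (h₂ : c₂ • f ∈ X.O₂) :
    ∃ h : (c₁ * c₂ ^ q) • normAlong (heckeAlphaBar (AlgebraicClosure ℚ) m q) f ∈ X.G.O,
      X.G.ρ ⟨_, h⟩ = X.ρ₁ ⟨c₁ • f, h₁⟩ * X.σ (X.ρ₂ ⟨c₂ • f, h₂⟩) := by
  have hq : q.Prime := Fact.out
  have e1 : algebraMap _ (LaurentSeries (AlgebraicClosure ℚ)) c₁ *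
      (f : LaurentSeries (AlgebraicClosure ℚ)) ∈ gaussSubring A := by
    have := (C.mem_O₁ _).mp h₁
    rwa [coe_smul_field] at this
  have e2 : algebraMap _ (LaurentSeries (AlgebraicClosure ℚ)) c₂ *
      (wq hq hm f : LaurentSeries (AlgebraicClosure ℚ)) ∈ gaussSubring A := by
    have := (C.mem_O₂ _).mp h₂
    rwa [wq_smul, coe_smul_field] at this
  obtain ⟨h, hh⟩ := gaussRed_norm A q e1 e2
  have e3 : (((c₁ * c₂ ^ q) • normAlong (heckeAlphaBar (AlgebraicClosure ℚ) m q) f :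
      modularFunctionFieldBar m) : LaurentSeries (AlgebraicClosure ℚ)) =
      algebraMap _ (LaurentSeries (AlgebraicClosure ℚ)) (c₁ * c₂ ^ q) *
        ((f : LaurentSeries (AlgebraicClosure ℚ)) * secNorm _ q (wq hq hm f)) := by
    rw [coe_smul_field, coe_normAlong_bar hq hm]
  have h' : (c₁ * c₂ ^ q) • normAlong (heckeAlphaBar (AlgebraicClosure ℚ) m q) f ∈ X.G.O := by
    rw [C.mem_O, e3]
    exact h
  refine ⟨h', Subtype.ext ?_⟩
  have e4 : ((X.ρ₁ ⟨c₁ • f, h₁⟩ * X.σ (X.ρ₂ ⟨c₂ • f, h₂⟩) :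
      modularFunctionFieldFullC (IsLocalRing.ResidueField A) m) :
        LaurentSeries (IsLocalRing.ResidueField A)) =
      (X.ρ₁ ⟨c₁ • f, h₁⟩ : LaurentSeries (IsLocalRing.ResidueField A)) *
        (X.σ (X.ρ₂ ⟨c₂ • f, h₂⟩) : LaurentSeries (IsLocalRing.ResidueField A)) := rfl
  rw [e4, C.coe_ρ, C.coe_σ, C.coe_ρ₁, C.coe_ρ₂]
  have e5 : gaussRed A ⟨_, e1⟩ = gaussRed A ⟨((c₁ • f : modularFunctionFieldBar (m * q)) :
      LaurentSeries (AlgebraicClosure ℚ)), (C.mem_O₁ _).mp h₁⟩ := by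
    congr 1
  have e6 : gaussRed A ⟨_, e2⟩ = gaussRed A ⟨(wq hq hm (c₂ • f) :
      LaurentSeries (AlgebraicClosure ℚ)), (C.mem_O₂ _).mp h₂⟩ := by
    congr 1
    apply Subtype.ext
    change _ = ((wq hq hm (c₂ • f) : modularFunctionFieldBar (m * q)) :
      LaurentSeries (AlgebraicClosure ℚ))
    rw [wq_smul, coe_smul_field]
  rw [← e5, ← e6, ← hh]
  congr 1
  exact Subtype.ext e3

include C in
theorem wq_mem (f : modularFunctionFieldBar (m * q)) (h : f ∈ X.O₂) :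
    ∃ h' : wq Fact.out hm f ∈ X.O₁, X.ρ₁ ⟨wq Fact.out hm f, h'⟩ = X.ρ₂ ⟨f, h⟩ := by
  have h1 := (C.mem_O₂ f).mp h
  refine ⟨(C.mem_O₁ _).mpr h1, Subtype.ext ?_⟩
  rw [C.coe_ρ₁, C.coe_ρ₂]

include C in
theorem galois_mem {φ : AlgebraicClosure ℚ ≃ₐ[ℚ] AlgebraicClosure ℚ} (hφ : A.IsFrobeniusAt φ q)
    (f : modularFunctionFieldBar (m * q)) (h : f ∈ X.O₁) :
    ∃ h' : arithmeticGalois (modularFunctionFieldFull (m * q)) φ • f ∈ X.O₁,
      X.ρ₁ ⟨arithmeticGalois (modularFunctionFieldFull (m * q)) φ • f, h'⟩ =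
        X.σ (X.ρ₁ ⟨f, h⟩) := by
  have hR := Fermat.Agent.TwoGauss.residueCompat_of_frobenius (q := q) hφ
  have h1 := (C.mem_O₁ f).mp h
  have h2 : coeffMap (φ : AlgebraicClosure ℚ →+* AlgebraicClosure ℚ)
      (f : LaurentSeries (AlgebraicClosure ℚ)) ∈ gaussSubring A := hR.coeffMap_mem h1
  have h' : arithmeticGalois (modularFunctionFieldFull (m * q)) φ • f ∈ X.O₁ := by
    rw [C.mem_O₁]
    exact h2
  refine ⟨h', Subtype.ext ?_⟩
  rw [C.coe_σ, C.coe_ρ₁ f h]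
  refine (C.coe_ρ₁ _ h').trans ?_
  exact hR.gaussRed_coeffMap ⟨_, h1⟩ h2

theorem mem_intField_bar {N : ℕ} [NeZero N] (f : modularFunctionFieldBar N) :
    (f : LaurentSeries (AlgebraicClosure ℚ)) ∈ intField (AlgebraicClosure ℚ) :=
  val_mem_intField (FF_eq N) f

include C in
theorem scale₁ (hA : A.LiesOverPrime q) (f : modularFunctionFieldBar (m * q)) (hf : f ≠ 0) :
    ∃ c : AlgebraicClosure ℚ, c ≠ 0 ∧ ∃ h : c • f ∈ X.O₁, X.ρ₁ ⟨c • f, h⟩ ≠ 0 := by
  haveI : Algebra.IsAlgebraic ℚ (AlgebraicClosure ℚ) := AlgebraicClosure.isAlgebraic ℚ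
  obtain ⟨c, hc, h, h0⟩ := exists_scale_series (Fact.out : q.Prime) hA (mem_intField_bar f)
    (by simpa using hf)
  have h1 : c • f ∈ X.O₁ := by
    rw [C.mem_O₁, coe_smul_field]; exact h
  refine ⟨c, hc, h1, fun h2 => h0 ?_⟩
  have h3 := C.coe_ρ₁ _ h1
  rw [h2] at h3
  refine Eq.trans ?_ h3.symm
  congr 1

include C in
theorem scale₂ (hA : A.LiesOverPrime q) (f : modularFunctionFieldBar (m * q)) (hf : f ≠ 0) :
    ∃ c : AlgebraicClosure ℚ, c ≠ 0 ∧ ∃ h : c • f ∈ X.O₂, X.ρ₂ ⟨c • f, h⟩ ≠ 0 := by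
  haveI : Algebra.IsAlgebraic ℚ (AlgebraicClosure ℚ) := AlgebraicClosure.isAlgebraic ℚ
  obtain ⟨c, hc, h, h0⟩ := exists_scale_series (Fact.out : q.Prime) hA
    (mem_intField_bar (wq Fact.out hm f)) (by simpa using hf)
  have h1 : c • f ∈ X.O₂ := by
    rw [C.mem_O₂, wq_smul, coe_smul_field]; exact h
  refine ⟨c, hc, h1, fun h2 => h0 ?_⟩
  have h3 := C.coe_ρ₂ _ h1
  rw [h2] at h3
  refine Eq.trans ?_ h3.symm
  congr 1
  apply Subtype.ext
  change _ = ((wq Fact.out hm (c • f) : modularFunctionFieldBar (m * q)) :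
    LaurentSeries (AlgebraicClosure ℚ))
  rw [wq_smul, coe_smul_field]

include C in
theorem scale (hA : A.LiesOverPrime q) (f : modularFunctionFieldBar m) (hf : f ≠ 0) :
    ∃ c : AlgebraicClosure ℚ, c ≠ 0 ∧ ∃ h : c • f ∈ X.G.O, X.G.ρ ⟨c • f, h⟩ ≠ 0 := by
  haveI : Algebra.IsAlgebraic ℚ (AlgebraicClosure ℚ) := AlgebraicClosure.isAlgebraic ℚ
  obtain ⟨c, hc, h, h0⟩ := exists_scale_series (Fact.out : q.Prime) hA (mem_intField_bar f)
    (by simpa using hf)
  have h1 : c • f ∈ X.G.O := by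
    rw [C.mem_O, coe_smul_field]; exact h
  refine ⟨c, hc, h1, fun h2 => h0 ?_⟩
  have h3 := C.coe_ρ _ h1
  rw [h2] at h3
  refine Eq.trans ?_ h3.symm
  congr 1

include C in
theorem isUnit_of_ρ_ne_zero (y : X.G.O) (hy : X.G.ρ y ≠ 0) : IsUnit y := by
  by_contra hu
  apply hy
  rw [X.G.ρ_eq_zero_iff, ValuationSubring.mem_nonunits_iff,
    ← ValuationSubring.valuation_lt_one_iff]
  exact hu

include C in
theorem ρ_const (c : AlgebraicClosure ℚ)
    (hc : algebraMap (AlgebraicClosure ℚ) (modularFunctionFieldBar m) c ∈ X.G.O) (n : ℕ)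
    (hn : 0 < n) :
    ∃ d, X.G.ρ ⟨algebraMap (AlgebraicClosure ℚ) (modularFunctionFieldBar m) c, hc⟩ = d ^ n := by
  have hcA : c ∈ X.G.A := (X.G.mem_O_iff c).mp hc
  obtain ⟨d, hd⟩ := IsAlgClosed.exists_pow_nat_eq (X.G.res ⟨c, hcA⟩) hn
  refine ⟨algebraMap _ _ d, ?_⟩
  rw [← map_pow, hd]
  exact X.G.ρ_algebraMap ⟨c, hcA⟩

set_option maxHeartbeats 1000000 in
include C in
/-- **(N)**: if `α_* x = 0` then `x + φ w x` is split at the first component. -/
theorem split_add' (hA : A.LiesOverPrime q) {φ : AlgebraicClosure ℚ ≃ₐ[ℚ] AlgebraicClosure ℚ}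
    (hφ : A.IsFrobeniusAt φ q) {n : ℕ} (hn : 0 < n)
    (x : Pic0 (AlgebraicClosure ℚ) (modularFunctionFieldBar (m * q))) (hx : n • x = 0)
    (hαx : pushPic0 (heckeAlphaBar (AlgebraicClosure ℚ) m q) (intA m q) (finAlpha m q)
      (nfAlpha m q) x = 0) :
    Split X.O₁ X.ρ₁ n (x + arithmeticGalois (modularFunctionFieldFull (m * q)) φ •
      (SemilinearAut.ofAlgAut (wq Fact.out hm) • x)) := by
  have key := split_of_norm X.O₁ X.O₂ X.ρ₁ X.ρ₂ X.G.O X.G.ρ (X.σ : _ →+* _) q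
    (heckeAlphaBar (AlgebraicClosure ℚ) m q) (intA m q) (finAlpha m q) (nfAlpha m q)
  exact key
    (C.scale₁ hA) (C.scale₂ hA) (C.scale hA) C.isUnit_of_ρ_ne_zero C.ρ_const C.norm_formula
    (wq Fact.out hm) C.wq_mem
    (arithmeticGalois (modularFunctionFieldFull (m * q)) φ) (C.galois_mem hφ) hn x hx hαx

include C in
/-- **(N)**: if `α_* x = 0` then `x + φ w x` is split at the first component. -/
theorem split_add (hA : A.LiesOverPrime q) {φ : AlgebraicClosure ℚ ≃ₐ[ℚ] AlgebraicClosure ℚ}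
    (hφ : A.IsFrobeniusAt φ q) {n : ℕ} (hn : 0 < n) (x : JZero (m * q)) (hx : n • x = 0)
    (hαx : pushA m q x = 0) :
    Split X.O₁ X.ρ₁ n (x + φ • wJ Fact.out hm x) := by
  rw [wJ_apply, galois_smul_pic0_def]
  unfold pushA at hαx
  exact C.split_add' hA hφ hn x hx hαx

end Compat

end Fermat.Agent.QX4

end
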