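import Fermat.Agent.S35_reduction

/-!
# The pointwise form of the relation at `q`
-/

set_option autoImplicit false

noncomputable section

open ModularCurve Fermat.Agent.GalRep Fermat.Agent.S35aux

namespace Fermat.Agent.QX4

section Pointwise

variable {J J' : Type*} [AddCommGroup J] [DistribMulAction GQ J] [AddCommGroup J']

/-- the pointwise relation `(φ² - 1)(φ² - q²) y = 0`. -/
def RelAt (q : ℕ) (φ : GQ) (y : J) : Prop :=
  φ • φ • (φ • φ • y - q ^ 2 • y) = φ • φ • y - q ^ 2 • y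

/-- the relation from the norm relation and the torus relation. -/
theorem relAt_of_norm {q n : ℕ} (α : J →+ J') (w : J →+ J) (hww : ∀ x, w (w x) = x) (φ : GQ)
    (hwg : ∀ (x : J), w (φ • x) = φ • w x) (T₁ : J → Prop)
    (hN : ∀ x : J, n • x = 0 → α x = 0 → T₁ (x + φ • w x))
    (hT : ∀ x : J, n • x = 0 → T₁ x → T₁ (w x) → φ • φ • x = q ^ 2 • x)
    (y : J) (hy : n • y = 0) (hα : α y = 0) (hαw : α (w y) = 0) : RelAt q φ y := by
  have hwx : ∀ z : J, n • z = 0 → n • w z = 0 := fun z hz => by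
    rw [← map_nsmul, hz, map_zero]
  have hφx : ∀ z : J, n • z = 0 → n • (φ • z) = 0 := fun z hz => by
    rw [smul_comm, hz, smul_zero]
  set z : J := y + φ • w y with hz
  have hwz : w z = w y + φ • w (w y) := by rw [hz, map_add, hwg]
  have hzm : n • z = 0 := by
    rw [hz, smul_add, hy, hφx _ (hwx _ hy), add_zero]
  have h1 : T₁ z := hN y hy hα
  have h2 : T₁ (w z) := by
    rw [hwz]
    exact hN (w y) (hwx _ hy) hαw
  have h3 := hT z hzm h1 h2
  have h4 : φ • φ • w z = q ^ 2 • w z := by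
    rw [← hwg, ← hwg, h3, map_nsmul]
  have h5 : z - φ • w z = y - φ • φ • y := by
    rw [hwz, hz, hww, smul_add]
    abel
  have h6 : φ • φ • (y - φ • φ • y) = q ^ 2 • (y - φ • φ • y) := by
    rw [← h5, smul_sub, smul_sub, h3, smul_sub]
    congr 1
    rw [h4, smul_comm φ (q ^ 2)]
  unfold RelAt
  have e1 : φ • φ • (φ • φ • y - q ^ 2 • y) = φ • φ • (φ • φ • y) - q ^ 2 • (φ • φ • y) := by
    rw [smul_sub, smul_sub, smul_comm φ (q ^ 2) y, smul_comm φ (q ^ 2)]
  rw [smul_sub, smul_sub, smul_sub] at h6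
  rw [e1]
  have h7 : φ • φ • y - φ • φ • φ • φ • y = q ^ 2 • y - q ^ 2 • (φ • φ • y) := h6
  have h8 : φ • φ • φ • φ • y - q ^ 2 • φ • φ • y = φ • φ • y - q ^ 2 • y := by
    rw [sub_eq_sub_iff_add_eq_add] at h7 ⊢
    rw [add_comm] at h7
    rw [add_comm (φ • φ • φ • φ • y)]
    rw [← h7]
    abel
  exact h8

end Pointwise

section Transfer

variable {J₁ J₂ : Type*} [AddCommGroup J₁] [DistribMulAction GQ J₁] [AddCommGroup J₂]
  [DistribMulAction GQ J₂]

/-- The relation descends along a Galois equivariant map whose kernel is killed by `d`. -/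
theorem RelAt.of_map {q n d : ℕ} {φ : GQ} (f : J₁ →+ J₂)
    (hf : ∀ x, n • x = 0 → f (φ • x) = φ • f x)
    (hk : ∀ x, n • x = 0 → f x = 0 → d • x = 0) {y : J₁} (hy : n • y = 0)
    (h : RelAt q φ (f y)) : RelAt q φ (d • y) := by
  have hφ : ∀ x : J₁, n • x = 0 → n • (φ • x) = 0 := fun x hx => by
    rw [smul_comm, hx, smul_zero]
  have hq : ∀ x : J₁, n • x = 0 → n • (q ^ 2 • x) = 0 := fun x hx => by
    rw [smul_comm, hx, smul_zero]
  have hsub : ∀ x x' : J₁, n • x = 0 → n • x' = 0 → n • (x - x') = 0 := fun x x' hx hx' => by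
    rw [smul_sub, hx, hx', sub_zero]
  have h1 : n • (φ • φ • y - q ^ 2 • y) = 0 := hsub _ _ (hφ _ (hφ _ hy)) (hq _ hy)
  have h2 : f (φ • φ • y - q ^ 2 • y) = φ • φ • f y - q ^ 2 • f y := by
    rw [map_sub, hf _ (hφ _ hy), hf _ hy, map_nsmul]
  have h3 : f (φ • φ • (φ • φ • y - q ^ 2 • y) - (φ • φ • y - q ^ 2 • y)) = 0 := by
    rw [map_sub, hf _ (hφ _ h1), hf _ h1, h2, sub_eq_zero]
    exact h
  have h4 := hk _ (hsub _ _ (hφ _ (hφ _ h1)) h1) h3
  unfold RelAt
  have hd : ∀ x : J₁, φ • (d • x) = d • (φ • x) := fun x => smul_comm _ _ _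
  have e1 : φ • φ • (d • y) - q ^ 2 • (d • y) = d • (φ • φ • y - q ^ 2 • y) := by
    rw [hd, hd, smul_comm (q ^ 2) d, smul_sub]
  rw [e1, hd, hd, ← sub_eq_zero, ← smul_sub]
  exact h4

end Transfer

section Frob

variable {J : Type*} [AddCommGroup J] [Module HeckeAlg J] [DistribMulAction GQ J]
  [SMulCommClass GQ HeckeAlg J]

/-- from the pointwise relation to `FrobSqInput`. -/
theorem frobSqInput_of_relAt {p q : ℕ} (t : HeckeAlg)
    (h : ∀ A : ValuationSubring (AlgebraicClosure ℚ), A.LiesOverPrime q →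
      ∀ φ : GQ, A.IsFrobeniusAt φ q → ∀ (m : ℕ) (x : J), p ^ m • x = 0 → RelAt q φ (t • x)) :
    FrobSqInput p q J t 1 := by
  intro A hA φ hφ m
  ext ⟨x, hx⟩
  rw [pow_one, pow_one]
  have hxm : p ^ m • x = 0 := hx
  have hrel := h A hA φ hφ m x hxm
  have hcomm : ∀ (g : GQ) (u : J), t • (g • u) = g • (t • u) := fun g u => (smul_comm g t u).symm
  set F : Module.End HeckeAlg (torsSub J p m) := actTors J p m φ with hF
  set Q : Module.End HeckeAlg (torsSub J p m) :=
    algebraMap HeckeAlg (Module.End HeckeAlg (torsSub J p m)) ((q : HeckeAlg) ^ 2) with hQ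
  set B : Module.End HeckeAlg (torsSub J p m) := F ^ 2 - Q with hB
  set C' : Module.End HeckeAlg (torsSub J p m) := F ^ 2 - 1 with hC'
  have e1 : ((B (⟨x, hx⟩ : torsSub J p m) : torsSub J p m) : J) = φ • φ • x - q ^ 2 • x := by
    rw [hB, LinearMap.sub_apply, pow_two, Module.End.mul_apply, Submodule.coe_sub]
    congr 1
    change ((q : HeckeAlg) ^ 2) • x = q ^ 2 • x
    rw [← Nat.cast_pow, Nat.cast_smul_eq_nsmul]
  have e2 : ∀ u : torsSub J p m, ((C' u : torsSub J p m) : J) = φ • φ • (u : J) - u := by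
    intro u
    rw [hC', LinearMap.sub_apply, pow_two, Module.End.mul_apply, Submodule.coe_sub]
    rfl
  rw [Module.End.mul_apply, Module.End.mul_apply]
  change t • ((C' (B (⟨x, hx⟩ : torsSub J p m)) : torsSub J p m) : J) = 0
  rw [e2, e1]
  have hq2 : ∀ u : J, t • (q ^ 2 • u) = q ^ 2 • (t • u) := fun u => smul_comm _ _ _
  rw [smul_sub, hcomm, hcomm, smul_sub, hcomm, hcomm, hq2, sub_eq_zero]
  exact hrel

end Frob

end Fermat.Agent.QX4

end
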