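import Fermat.Agent.QX4.Poly
import Fermat.Agent.QX4.Concrete
import Fermat.Agent.QX4.LevelUp
import Fermat.Agent.QX4.Pointwise

/-!
# The relation `t (φ² - 1)(φ² - q²) = 0` on `J₀(mq)[p^∞]`
-/

set_option autoImplicit false
set_option linter.style.haveILetI false
set_option linter.unusedSectionVars false

noncomputable section

open ModularCurve AlgebraicCurve IntermediateField Fermat.Agent.TEll Fermat.Agent.X0Emb
open Fermat.Agent.GaussVal Fermat.Agent.GalRep Fermat.Agent.S35aux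
open scoped Fermat.Agent.GaussVal
open Fermat.Agent.TwoGauss (wq)
open Fermat.Agent.S37aux (inclBar)

namespace Fermat.Agent.QX4

variable {m m' q : ℕ} [NeZero m] [NeZero m'] [NeZero q]

/-- The type of two-component data at `A`. -/
abbrev DataAt (m q : ℕ) [NeZero m] [NeZero q] (A : ValuationSubring (AlgebraicClosure ℚ)) : Type _ :=
  TwoComp.Data (AlgebraicClosure ℚ) (modularFunctionFieldBar m)
      (modularFunctionFieldBar (m * q)) (IsLocalRing.ResidueField A)
      (modularFunctionFieldFullC (IsLocalRing.ResidueField A) m) q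

/-- **(T)**: the Frobenius on the torsion classes split at both components. -/
def TorusInput [Fact q.Prime] (hm : ¬ q ∣ m) {A : ValuationSubring (AlgebraicClosure ℚ)}
    (X : DataAt m q A) : Prop :=
  ∀ φ : GQ, A.IsFrobeniusAt φ q → ∀ n : ℕ, 0 < n → Nat.Coprime n q → ∀ x : JZero (m * q),
    n • x = 0 → Split X.O₁ X.ρ₁ n x → Split X.O₁ X.ρ₁ n (wJ Fact.out hm x) →
      φ • φ • x = q ^ 2 • x

/-- The geometric input at `q`. -/
def GeoInput [Fact q.Prime] (hm : ¬ q ∣ m) : Prop :=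
  ∀ (A : ValuationSubring (AlgebraicClosure ℚ)) (_ : A.LiesOverPrime q)
    (_ : CharP (IsLocalRing.ResidueField A) q), ∃ X : DataAt m q A,
      Compat hm A X ∧ TorusInput hm X

/-- the pointwise relation at level `mq`. -/
theorem relAt_level [Fact q.Prime] (hm : ¬ q ∣ m) (hgeo : GeoInput hm)
    {A : ValuationSubring (AlgebraicClosure ℚ)} (hA : A.LiesOverPrime q) {φ : GQ}
    (hφ : A.IsFrobeniusAt φ q) {n : ℕ} (hn : 0 < n) (hnq : Nat.Coprime n q)
    (y : JZero (m * q)) (hy : n • y = 0) (hα : pushA m q y = 0)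
    (hαw : pushA m q (wJ Fact.out hm y) = 0) : RelAt q φ y := by
  haveI := charP_residueField A q hA
  obtain ⟨X, C, hT⟩ := hgeo A hA this
  exact relAt_of_norm (pushA m q) (wJ Fact.out hm) (wJ_wJ _ hm) φ (fun x => wJ_galois _ hm φ x)
    (fun x => Split X.O₁ X.ρ₁ n x) (fun x hx hαx => C.split_add hA hφ hn x hx hαx)
    (fun x hx h1 h2 => hT φ hφ n hn hnq x hx h1 h2) y hy hα hαw

/-- the pointwise relation at level `mq` from the geometric input at level `m'q`, `m ∣ m'`. -/
theorem relAt_levelUp [Fact q.Prime] (hm : ¬ q ∣ m) (hm' : ¬ q ∣ m') (hmm : m ∣ m')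
    (hgeo : GeoInput hm')
    {A : ValuationSubring (AlgebraicClosure ℚ)} (hA : A.LiesOverPrime q) {φ : GQ}
    (hφ : A.IsFrobeniusAt φ q) {n : ℕ} (hn : 0 < n) (hnq : Nat.Coprime n q)
    (y : JZero (m * q)) (hy : n • y = 0) (hα : pushA m q y = 0)
    (hαw : pushA m q (wJ Fact.out hm y) = 0) :
    RelAt q φ (finrankAlong (AlgebraicClosure ℚ) (inclBar (Nat.mul_dvd_mul_right hmm q)) • y) := by
  have hwy : n • wJ Fact.out hm y = 0 := by rw [← map_nsmul, hy, map_zero]
  refine RelAt.of_map (n := n) (piUp (Nat.mul_dvd_mul_right hmm q))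
    (fun x hx => piUp_galois _ φ hn.ne' x hx) (fun x hx h0 => smul_eq_zero_of_piUp _ hn.ne' x hx h0)
    hy (relAt_level hm' hgeo hA hφ hn hnq _ ?_ ?_ ?_)
  · rw [← map_nsmul, hy, map_zero]
  · rw [pushA_piUp Fact.out hm hm' hmm hn.ne' y hy, hα, map_zero]
  · rw [wJ_piUp Fact.out hm hm' hmm hn.ne' y hy, pushA_piUp Fact.out hm hm' hmm hn.ne' _ hwy, hαw,
      map_zero]

/-- the relation at `q` for Hecke polynomials killing the `p`-power torsion of `J₀(m)`. -/
theorem frobSqInput_JZero [Fact q.Prime] (hm : ¬ q ∣ m) (hm' : ¬ q ∣ m') (hmm : m ∣ m')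
    (hgeo : GeoInput hm') {p : ℕ}
    (hp : p.Prime) (hpq : q ≠ p) (S : Set ℕ) (hS : ∀ ℓ : ℕ, ℓ.Prime → ℓ ∣ m * q → ℓ ∈ S)
    (t : HeckeAlgS S)
    (ht : ∀ (k : ℕ) (y : JZero m), p ^ k • y = 0 →
      (letI := heckeModuleBar m; inclS S t • y) = 0) :
    letI := heckeModuleBar (m * q)
    ∀ [SMulCommClass GQ HeckeAlg (JZero (m * q))],
      FrobSqInput p q (JZero (m * q))
        (inclS S ((finrankAlong (AlgebraicClosure ℚ)
          (inclBar (Nat.mul_dvd_mul_right hmm q)) : ℕ) * t)) 1 := by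
  letI i1 := heckeModuleBar (m * q)
  intro _
  have hq : q.Prime := Fact.out
  refine frobSqInput_of_relAt _ (fun A hA φ hφ k x hx => ?_)
  have hpk : 0 < p ^ k := pow_pos hp.pos k
  rw [map_mul, map_natCast, mul_smul, Nat.cast_smul_eq_nsmul]
  have hy : p ^ k • (inclS S t • x) = 0 := by rw [smul_comm, hx, smul_zero]
  have hwx : p ^ k • wJ hq hm x = 0 := by rw [← map_nsmul, hx, map_zero]
  refine relAt_levelUp hm hm' hmm hgeo hA hφ hpk
    (Nat.Coprime.pow_left k ((Nat.coprime_primes hp hq).mpr hpq.symm)) _ hy ?_ ?_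
  · rw [pushA_inclS hq hm S hS hpk.ne' t x hx]
    apply ht k
    rw [← map_nsmul, hx, map_zero]
  · rw [wJ_inclS hq hm S hS hpk.ne' t x hx, pushA_inclS hq hm S hS hpk.ne' t _ hwx]
    apply ht k
    rw [← map_nsmul, hwx, map_zero]

end Fermat.Agent.QX4

end
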