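import Fermat.Agent.QX4.Final
import Fermat.Agent.TwoGauss.Instance

/-!
# The concrete two-component data are compatible with Gauss reduction
-/

set_option autoImplicit false
set_option linter.style.haveILetI false
set_option linter.unusedSectionVars false

noncomputable section

open ModularCurve AlgebraicCurve IntermediateField
open Fermat.Agent.GaussVal Fermat.Agent.GalRep Fermat.Agent.FF
open scoped Fermat.Agent.GaussVal
open Fermat.Agent.TwoGauss (wq mkData)

namespace Fermat.Agent.QX4

variable {A : ValuationSubring (AlgebraicClosure ℚ)} {q m : ℕ} [NeZero m]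
  [Fact q.Prime] [CharP (IsLocalRing.ResidueField A) q]
  (hq : q.Prime) (hm : ¬ q ∣ m) (hA : A.LiesOverPrime q)
  (H3 : S18aux.DegThm (IsLocalRing.ResidueField A) m)
  [IsAlgClosed (IsLocalRing.ResidueField A)] [PerfectRing (IsLocalRing.ResidueField A) q]
  (H2 : genusFF (AlgebraicClosure ℚ) (modularFunctionFieldBar m) ≤
    genusFF (IsLocalRing.ResidueField A) (modularFunctionFieldFullC (IsLocalRing.ResidueField A) m))

theorem compat_mkData : Compat hm A (mkData hq hm hA H3 H2) where
  mem_O₁ _ := Iff.rfl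
  mem_O₂ _ := Iff.rfl
  mem_O _ := Iff.rfl
  coe_ρ₁ x h := Fermat.Agent.TwoGauss.coe_ρ₁ hq hm hA H3 ⟨x, h⟩
  coe_ρ₂ x h := Fermat.Agent.TwoGauss.coe_ρ₂ hq hm hA H3 ⟨x, h⟩
  coe_ρ x h := Fermat.Agent.TwoGauss.coe_Gm_ρ hq hA H3 x h
  coe_σ y := Fermat.Agent.TwoGauss.coe_frobAut (IsLocalRing.ResidueField A) q m y

end Fermat.Agent.QX4

end
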