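import Fermat.Agent.QX4.Defs

/-!
# The norm relation `α_* x = 0 ⇒ (1 + s w) x` is split at the first valuation
-/

set_option autoImplicit false
set_option linter.style.haveILetI false

noncomputable section

open AlgebraicCurve Fermat.Agent.TEll

namespace Fermat.Agent.QX4

variable {K F F' Fm : Type*} [Field K] [Field F] [Algebra K F] [Field F'] [Field Fm] [Algebra K Fm]

theorem ord_smul_const (v : Place K F) {c : K} (hc : c ≠ 0) {f : F} (hf : f ≠ 0) :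
    v.ord (c • f) = v.ord f := by
  rw [Algebra.smul_def, v.ord_mul (by simpa using hc) hf, ord_algebraMap_eq_zero v hc, zero_add]

/-- **The norm relation.**  Let `x ∈ Pic⁰(F)[n]` with `α_* x = 0`.  If the norm from `F` to `α Fm`
reduces to `ρ₁(f) · σ(ρ₂(f))`, then `x + s • w • x` is split at `O₁`. -/
theorem split_of_norm [IsAlgClosed K] [FF.IsFF K F] [FF.IsFF K Fm]
    (O₁ O₂ : ValuationSubring F) (ρ₁ : O₁ →+* F') (ρ₂ : O₂ →+* F')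
    (OL : ValuationSubring Fm) (ρL : OL →+* F') (σ : F' →+* F') (q : ℕ)
    (α : Fm →ₐ[K] F) (hα : α.toRingHom.IsIntegral) (hfin : FiniteAlong K α)
    (hN : NormFormulaAlong K α hfin)
    (hsc₁ : ∀ f : F, f ≠ 0 → ∃ c : K, c ≠ 0 ∧ ∃ h : c • f ∈ O₁, ρ₁ ⟨c • f, h⟩ ≠ 0)
    (hsc₂ : ∀ f : F, f ≠ 0 → ∃ c : K, c ≠ 0 ∧ ∃ h : c • f ∈ O₂, ρ₂ ⟨c • f, h⟩ ≠ 0)
    (hscL : ∀ f : Fm, f ≠ 0 → ∃ c : K, c ≠ 0 ∧ ∃ h : c • f ∈ OL, ρL ⟨c • f, h⟩ ≠ 0)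
    (hkL : ∀ x : OL, ρL x ≠ 0 → IsUnit x)
    (hconst : ∀ (c : K) (h : algebraMap K Fm c ∈ OL) (n : ℕ), 0 < n →
      ∃ d : F', ρL ⟨algebraMap K Fm c, h⟩ = d ^ n)
    (hnorm : ∀ (f : F) (c₁ c₂ : K) (h₁ : c₁ • f ∈ O₁) (h₂ : c₂ • f ∈ O₂),
      ∃ h : (c₁ * c₂ ^ q) • normAlong α f ∈ OL,
        ρL ⟨(c₁ * c₂ ^ q) • normAlong α f, h⟩ = ρ₁ ⟨c₁ • f, h₁⟩ * σ (ρ₂ ⟨c₂ • f, h₂⟩))
    (w : F ≃ₐ[K] F) (hw : ∀ (f : F) (h : f ∈ O₂), ∃ h' : w f ∈ O₁, ρ₁ ⟨w f, h'⟩ = ρ₂ ⟨f, h⟩)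
    (s : SemilinearAut K F)
    (hs : ∀ (f : F) (h : f ∈ O₁), ∃ h' : s • f ∈ O₁, ρ₁ ⟨s • f, h'⟩ = σ (ρ₁ ⟨f, h⟩))
    {n : ℕ} (hn : 0 < n) (x : Pic0 K F) (hx : n • x = 0) (hαx : pushPic0 α hα hfin hN x = 0) :
    Split O₁ ρ₁ n (x + s • (SemilinearAut.ofAlgAut w • x)) := by
  obtain ⟨D, rfl⟩ := Pic0.mk_surjective x
  obtain ⟨φ, hφ0, hφ⟩ := exists_ord_eq_of_nsmul_eq_zero hx
  rw [pushPic0_mk] at hαx
  obtain ⟨h, hh0, hh⟩ := (mk_eq_zero_iff _).mp hαx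
  -- the norm of `φ` has the divisor of `h ^ n`
  have hNφ0 : normAlong α φ ≠ 0 := normAlong_ne_zero α hfin hφ0
  have hNφ : ∀ v : Place K Fm, v.ord (normAlong α φ) = n * v.ord h := by
    intro v
    have h1 : ∀ v' : Place K F, ((n • D : Divisor.degZero (K := K) (F := F)) : Divisor K F) v' =
        v'.ord φ := by
      intro v'
      rw [hφ v']
      simp
    have h2 := pushforwardAlong_eq_ord α hα hfin hN hφ0 h1 v
    rw [← h2]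
    have h3 : Divisor.pushforwardAlong α hα
        ((n • D : Divisor.degZero (K := K) (F := F)) : Divisor K F) =
        n • Divisor.pushforwardAlong α hα (D : Divisor K F) := by
      rw [← map_nsmul]; rfl
    rw [h3]
    have h4 := hh v
    rw [coe_pushDegZero] at h4
    simp [← h4]
  have hratio : ∀ v : Place K Fm, v.ord (normAlong α φ * (h ^ n)⁻¹) = 0 := by
    intro v
    rw [v.ord_mul hNφ0 (inv_ne_zero (pow_ne_zero n hh0)), v.ord_inv, ← zpow_natCast, v.ord_zpow,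
      hNφ v]
    ring
  obtain ⟨c, hc⟩ := exists_const_of_ord_eq_zero
    (mul_ne_zero hNφ0 (inv_ne_zero (pow_ne_zero n hh0))) hratio
  have hNφh : normAlong α φ = c • h ^ n := by
    rw [Algebra.smul_def, hc, mul_assoc, inv_mul_cancel₀ (pow_ne_zero n hh0), mul_one]
  -- scaling
  obtain ⟨c₁, hc₁, h₁, hρ₁⟩ := hsc₁ φ hφ0
  obtain ⟨c₂, hc₂, h₂, hρ₂⟩ := hsc₂ φ hφ0
  obtain ⟨c₃, hc₃, h₃, hρ₃⟩ := hscL h hh0
  obtain ⟨h₄, hρ₄⟩ := hnorm φ c₁ c₂ h₁ h₂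
  -- `(c₁ c₂^q) N φ = c' (c₃ h)^n`
  set c' : K := c₁ * c₂ ^ q * c * (c₃ ^ n)⁻¹ with hc'
  have heq : (c₁ * c₂ ^ q) • normAlong α φ = algebraMap K Fm c' * (c₃ • h) ^ n := by
    have hc₃' : algebraMap K Fm c₃ ≠ 0 := by simpa using hc₃
    rw [hNφh, hc', Algebra.smul_def, Algebra.smul_def, Algebra.smul_def, mul_pow]
    simp only [map_mul, map_inv₀, map_pow]
    have e0 : ((algebraMap K Fm c₃) ^ n)⁻¹ * (algebraMap K Fm c₃) ^ n = 1 :=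
      inv_mul_cancel₀ (pow_ne_zero n hc₃')
    linear_combination (-(algebraMap K Fm c₁ * (algebraMap K Fm c₂) ^ q * algebraMap K Fm c *
      h ^ n)) * e0
  obtain ⟨u₃, hu₃⟩ := hkL ⟨c₃ • h, h₃⟩ hρ₃
  have hc'mem : algebraMap K Fm c' ∈ OL := by
    have h5 : algebraMap K Fm c' = ((c₁ * c₂ ^ q) • normAlong α φ) *
        (((u₃⁻¹ : OLˣ) : OL) : Fm) ^ n := by
      rw [heq, mul_assoc, ← mul_pow]
      have h6 : (c₃ • h) * (((u₃⁻¹ : OLˣ) : OL) : Fm) = 1 := by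
        have h7 : (⟨c₃ • h, h₃⟩ : OL) * ((u₃⁻¹ : OLˣ) : OL) = 1 := by
          rw [← hu₃, Units.mul_inv]
        exact congrArg Subtype.val h7
      rw [h6, one_pow, mul_one]
    rw [h5]
    exact OL.mul_mem _ _ h₄ (pow_mem ((u₃⁻¹ : OLˣ) : OL).2 n)
  obtain ⟨d, hd⟩ := hconst c' hc'mem n hn
  have hρ₅ : ρ₁ ⟨c₁ • φ, h₁⟩ * σ (ρ₂ ⟨c₂ • φ, h₂⟩) = (d * ρL ⟨c₃ • h, h₃⟩) ^ n := by
    rw [← hρ₄, mul_pow, ← hd, ← map_pow, ← map_mul]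
    congr 1
    exact Subtype.ext heq
  -- the split representative
  obtain ⟨h₆, hρ₆⟩ := hw (c₂ • φ) h₂
  obtain ⟨h₇, hρ₇⟩ := hs (w (c₂ • φ)) h₆
  have hσinj : Function.Injective σ := σ.injective
  refine ⟨D + SemilinearAut.degZeroSMulHom s
      (SemilinearAut.degZeroSMulHom (SemilinearAut.ofAlgAut w) D),
    (c₁ • φ) * (s • w (c₂ • φ)), O₁.mul_mem _ _ h₁ h₇, d * ρL ⟨c₃ • h, h₃⟩, ?_, ?_, ?_, ?_⟩
  · rw [SemilinearAut.pic0_smul_mk, SemilinearAut.pic0_smul_mk, ← Pic0.mk_add]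
  · intro h0
    rw [h0, zero_pow hn.ne'] at hρ₅
    rcases mul_eq_zero.mp hρ₅ with h8 | h8
    · exact hρ₁ h8
    · exact hρ₂ (hσinj (h8.trans (map_zero σ).symm))
  · intro v
    have hc₂φ : c₂ • φ ≠ 0 := smul_ne_zero hc₂ hφ0
    have hwφ : w (c₂ • φ) ≠ 0 := by simpa using hc₂φ
    have hsφ : s • w (c₂ • φ) ≠ 0 := by simpa using hc₂φ
    rw [v.ord_mul (smul_ne_zero hc₁ hφ0) hsφ, ord_smul_const v hc₁ hφ0, hφ v]
    have e1 : v.ord (s • w (c₂ • φ)) = (s⁻¹ • v).ord (w (c₂ • φ)) := by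
      have := SemilinearAut.ord_smul s (s⁻¹ • v) (w (c₂ • φ))
      rwa [smul_inv_smul] at this
    have e2 : (s⁻¹ • v).ord (w (c₂ • φ)) =
        ((SemilinearAut.ofAlgAut w)⁻¹ • (s⁻¹ • v)).ord (c₂ • φ) := by
      have := SemilinearAut.ord_smul (SemilinearAut.ofAlgAut w)
        ((SemilinearAut.ofAlgAut w)⁻¹ • (s⁻¹ • v)) (c₂ • φ)
      rwa [smul_inv_smul, SemilinearAut.ofAlgAut_smul] at this
    rw [e1, e2, ord_smul_const _ hc₂ hφ0, hφ]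
    have e3 : ((SemilinearAut.degZeroSMulHom s
        (SemilinearAut.degZeroSMulHom (SemilinearAut.ofAlgAut w) D) :
          Divisor.degZero (K := K) (F := F)) : Divisor K F) v =
        (D : Divisor K F) ((SemilinearAut.ofAlgAut w)⁻¹ • (s⁻¹ • v)) := by
      rw [SemilinearAut.coe_degZeroSMulHom, SemilinearAut.coe_degZeroSMulHom,
        SemilinearAut.divisor_smul_apply, SemilinearAut.divisor_smul_apply]
    rw [AddSubgroup.coe_add, Finsupp.add_apply, e3]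
    ring
  · rw [← hρ₅, ← hρ₆, ← hρ₇, ← map_mul]
    rfl

end Fermat.Agent.QX4

end
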