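import Fermat.Agent.TEll.SwapEquiv

/-!
# The Atkin--Lehner involution `w_q` commutes with `T_ℓ` on functions
-/

set_option autoImplicit false
set_option linter.style.haveILetI false
set_option linter.unusedSectionVars false

noncomputable section

open ModularCurve AlgebraicCurve IntermediateField Fermat.Agent.TEll Fermat.Agent.X0Emb

namespace Fermat.Agent.QX4

section General

variable {K A B : Type*} [Field K] [Field A] [Field B] [Algebra K A] [Algebra K B]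

/-- the norm along `φ` is compatible with automorphisms `W` of `B` and `w` of `A`, `W φ = φ w`. -/
theorem normAlong_equiv (φ : A →ₐ[K] B) (w : A ≃ₐ[K] A) (W : B ≃ₐ[K] B)
    (h : ∀ a, W (φ a) = φ (w a)) (b : B) : normAlong φ (W b) = w (normAlong φ b) := by
  letI := algebraAlong φ
  have h1 := Algebra.norm_eq_of_equiv_equiv (w : A ≃+* A) (W : B ≃+* B)
    (RingHom.ext fun a => (h a).symm) b
  change Algebra.norm A (W b) = w (Algebra.norm A b)
  rw [h1]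
  exact ((w : A ≃+* A).apply_symm_apply _).symm

theorem coe_equivOfEq' {S T : IntermediateField K A} (h : S = T) (x : S) :
    ((IntermediateField.equivOfEq h x : T) : A) = x := by
  subst h
  rfl

theorem coe_equivOfEq_symm' {S T : IntermediateField K A} (h : S = T) (x : T) :
    (((IntermediateField.equivOfEq h).symm x : S) : A) = x := by
  subst h
  rfl

end General

section Swap

variable (L : Type*) [Field L] [Algebra ℚ L] (m q ℓ : ℕ) [NeZero m] [NeZero q] [NeZero ℓ]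

theorem FF0_eq : FF0 L (m * q * ℓ) = FF0 L (m * ℓ * q) := by
  rw [mul_right_comm]

/-- the identity `F_{(mq)ℓ} = F_{(mℓ)q}`. -/
def eqv : FF0 L (m * q * ℓ) ≃ₐ[L] FF0 L (m * ℓ * q) :=
  IntermediateField.equivOfEq (FF0_eq L m q ℓ)

theorem coe_eqv (x : FF0 L (m * q * ℓ)) : (eqv L m q ℓ x : LaurentSeries L) = x :=
  coe_equivOfEq' (FF0_eq L m q ℓ) x

theorem coe_eqv_symm (x : FF0 L (m * ℓ * q)) :
    ((eqv L m q ℓ).symm x : LaurentSeries L) = x :=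
  coe_equivOfEq_symm' (FF0_eq L m q ℓ) x

variable {L m q ℓ}

theorem coprime_mul_right' (hqm : Nat.Coprime q m) (hqℓ : Nat.Coprime q ℓ) :
    Nat.Coprime q (m * ℓ) := Nat.Coprime.mul_right hqm hqℓ

/-- `w_q` at level `m q ℓ`. -/
def bigSwap (ι : L →+* ℂ) (hqm : Nat.Coprime q m) (hqℓ : Nat.Coprime q ℓ) :
    FF0 L (m * q * ℓ) ≃ₐ[L] FF0 L (m * q * ℓ) :=
  ((eqv L m q ℓ).trans (swapEquiv ι (coprime_mul_right' hqm hqℓ))).trans (eqv L m q ℓ).symm

theorem coe_bigSwap (ι : L →+* ℂ) (hqm : Nat.Coprime q m) (hqℓ : Nat.Coprime q ℓ)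
    (x : FF0 L (m * q * ℓ)) :
    (bigSwap ι hqm hqℓ x : LaurentSeries L) =
      (swapHom ι (coprime_mul_right' hqm hqℓ) (eqv L m q ℓ x) : FF0 L (m * ℓ * q)) := by
  unfold bigSwap
  rw [AlgEquiv.trans_apply, AlgEquiv.trans_apply, coe_eqv_symm, swapEquiv_apply]

/-- the index of `j(q^{d₁ d₂})` at level `m ℓ q`. -/
def bigIx (e : ℕ) (he : e ∣ ℓ) (i : Ix m q) : Ix (m * ℓ) q :=
  (⟨i.1.1 * e, Nat.mem_divisors.mpr ⟨mul_dvd_mul (Nat.dvd_of_mem_divisors i.1.2) he,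
    Nat.mul_ne_zero (NeZero.ne m) (NeZero.ne ℓ)⟩⟩, i.2)

theorem swapIx_bigIx (e : ℕ) (he : e ∣ ℓ) (i : Ix m q) :
    swapIx (bigIx e he i) = bigIx e he (swapIx i) := rfl

theorem jser_bigIx_one (i : Ix m q) :
    jser L (bigIx (ℓ := ℓ) 1 (one_dvd ℓ) i) = jser L i := by
  unfold jser
  exact qExpand_congr (by simp [bigIx]) _

theorem jser_bigIx_self (i : Ix m q) :
    jser L (bigIx (ℓ := ℓ) ℓ dvd_rfl i) = qExpand L ℓ (jser L i) := by
  unfold jser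
  haveI : NeZero (ℓ * (i.1.1 * i.2.1)) := ⟨Nat.mul_ne_zero (NeZero.ne ℓ) i.ne_zero⟩
  rw [qExpand_qExpand]
  exact qExpand_congr (by simp only [bigIx]; ring) _

theorem bigSwap_comp_alpha (ι : L →+* ℂ) (hqm : Nat.Coprime q m) (hqℓ : Nat.Coprime q ℓ) :
    ((bigSwap ι hqm hqℓ : FF0 L (m * q * ℓ) →ₐ[L] FF0 L (m * q * ℓ))).comp
      (heckeAlphaBar L (m * q) ℓ) =
      (heckeAlphaBar L (m * q) ℓ).comp (swapHom ι hqm) := by
  apply algHom_ext_jser
  intro i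
  apply Subtype.ext
  have hl : ((((bigSwap ι hqm hqℓ : FF0 L (m * q * ℓ) →ₐ[L] FF0 L (m * q * ℓ))).comp
      (heckeAlphaBar L (m * q) ℓ)) ⟨jser L i, jser_mem L i⟩ : LaurentSeries L) =
      (swapHom ι (coprime_mul_right' hqm hqℓ) (eqv L m q ℓ (heckeAlphaBar L (m * q) ℓ
        ⟨jser L i, jser_mem L i⟩)) : FF0 L (m * ℓ * q)) := coe_bigSwap ι hqm hqℓ _
  have h1 : eqv L m q ℓ (heckeAlphaBar L (m * q) ℓ ⟨jser L i, jser_mem L i⟩) =
      ⟨jser L (bigIx (ℓ := ℓ) 1 (one_dvd ℓ) i), jser_mem L _⟩ := by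
    apply Subtype.ext
    rw [coe_eqv, coe_heckeAlphaBar]
    exact (jser_bigIx_one i).symm
  rw [hl, h1, swapHom_jser, AlgHom.comp_apply, coe_heckeAlphaBar, swapHom_jser, swapIx_bigIx]
  exact jser_bigIx_one _

theorem bigSwap_comp_beta (ι : L →+* ℂ) (hqm : Nat.Coprime q m) (hqℓ : Nat.Coprime q ℓ) :
    ((bigSwap ι hqm hqℓ : FF0 L (m * q * ℓ) →ₐ[L] FF0 L (m * q * ℓ))).comp
      (heckeBetaBar L (m * q) ℓ) =
      (heckeBetaBar L (m * q) ℓ).comp (swapHom ι hqm) := by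
  apply algHom_ext_jser
  intro i
  apply Subtype.ext
  have hl : ((((bigSwap ι hqm hqℓ : FF0 L (m * q * ℓ) →ₐ[L] FF0 L (m * q * ℓ))).comp
      (heckeBetaBar L (m * q) ℓ)) ⟨jser L i, jser_mem L i⟩ : LaurentSeries L) =
      (swapHom ι (coprime_mul_right' hqm hqℓ) (eqv L m q ℓ (heckeBetaBar L (m * q) ℓ
        ⟨jser L i, jser_mem L i⟩)) : FF0 L (m * ℓ * q)) := coe_bigSwap ι hqm hqℓ _
  have h1 : eqv L m q ℓ (heckeBetaBar L (m * q) ℓ ⟨jser L i, jser_mem L i⟩) =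
      ⟨jser L (bigIx (ℓ := ℓ) ℓ dvd_rfl i), jser_mem L _⟩ := by
    apply Subtype.ext
    rw [coe_eqv, coe_heckeBetaBar]
    exact (jser_bigIx_self i).symm
  rw [hl, h1, swapHom_jser, AlgHom.comp_apply, coe_heckeBetaBar, swapHom_jser, swapIx_bigIx]
  exact jser_bigIx_self _

theorem bigSwap_alpha (ι : L →+* ℂ) (hqm : Nat.Coprime q m) (hqℓ : Nat.Coprime q ℓ)
    (f : FF0 L (m * q)) :
    bigSwap ι hqm hqℓ (heckeAlphaBar L (m * q) ℓ f) =
      heckeAlphaBar L (m * q) ℓ (swapEquiv ι hqm f) :=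
  DFunLike.congr_fun (bigSwap_comp_alpha ι hqm hqℓ) f

theorem bigSwap_beta (ι : L →+* ℂ) (hqm : Nat.Coprime q m) (hqℓ : Nat.Coprime q ℓ)
    (f : FF0 L (m * q)) :
    bigSwap ι hqm hqℓ (heckeBetaBar L (m * q) ℓ f) =
      heckeBetaBar L (m * q) ℓ (swapEquiv ι hqm f) :=
  DFunLike.congr_fun (bigSwap_comp_beta ι hqm hqℓ) f

/-- **`w_q` commutes with `T_ℓ` on functions.** -/
theorem TEll_swap (ι : L →+* ℂ) (hqm : Nat.Coprime q m) (hqℓ : Nat.Coprime q ℓ)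
    (f : FF0 L (m * q)) :
    TEll L (m * q) ℓ (swapEquiv ι hqm f) = swapEquiv ι hqm (TEll L (m * q) ℓ f) := by
  rw [TEll_apply, TEll_apply, ← bigSwap_beta ι hqm hqℓ]
  exact normAlong_equiv (heckeAlphaBar L (m * q) ℓ) (swapEquiv ι hqm) (bigSwap ι hqm hqℓ)
      (bigSwap_alpha ι hqm hqℓ) _

end Swap

end Fermat.Agent.QX4

end
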