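import Fermat.Agent.QX4.SecComm
import Fermat.Agent.QX4.SwapTEll
import Fermat.Agent.TEll.Inputs
import Fermat.Agent.TwoGauss.AtkinLehner

/-!
# The norm along `α` and the Atkin--Lehner involution commute with `T_ℓ` on functions
-/

set_option autoImplicit false
set_option linter.style.haveILetI false
set_option linter.unusedSectionVars false

noncomputable section

open ModularCurve AlgebraicCurve IntermediateField Fermat.Agent.TEll Fermat.Agent.X0Emb
open Fermat.Agent.TwoGauss (wq wq_alpha wq_beta Dv jdB FB_algHom_ext)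

namespace Fermat.Agent.QX4

variable {m q ℓ : ℕ} [NeZero m] [NeZero q] [NeZero ℓ]

theorem wq_eq_swapHom (hq : q.Prime) (hm : ¬ q ∣ m) (f : modularFunctionFieldBar (m * q)) :
    wq hq hm f = swapHom iota ((Nat.Prime.coprime_iff_not_dvd hq).mpr hm) f := by
  have h : (wq hq hm : modularFunctionFieldBar (m * q) →ₐ[AlgebraicClosure ℚ]
      modularFunctionFieldBar (m * q)) =
        swapHom iota ((Nat.Prime.coprime_iff_not_dvd hq).mpr hm) := by
    apply FB_algHom_ext
    rintro ⟨d, hd⟩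
    haveI : NeZero d := Dv.neZero ⟨d, hd⟩
    by_cases hqd : q ∣ d
    · obtain ⟨e, rfl⟩ := hqd
      have he : e ∣ m := Fermat.Agent.TwoGauss.dvd_m_of_mul hq hd
      have h1 : jdB (AlgebraicClosure ℚ) (m * q) ⟨q * e, hd⟩ =
          heckeBetaBar (AlgebraicClosure ℚ) m q (jdB _ m ⟨e, he⟩) := by
        haveI : NeZero e := Dv.neZero ⟨e, he⟩
        apply Subtype.ext
        rw [coe_heckeBetaBar, Fermat.Agent.TwoGauss.coe_jdB, Fermat.Agent.TwoGauss.coe_jdB,
          Fermat.Agent.TwoGauss.qExpand_jd]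
      rw [h1, swapHom_beta]
      exact wq_beta hq hm _
    · have he : d ∣ m := Fermat.Agent.TwoGauss.dvd_m_of_not_dvd hq hqd hd
      have h1 : jdB (AlgebraicClosure ℚ) (m * q) ⟨d, hd⟩ =
          heckeAlphaBar (AlgebraicClosure ℚ) m q (jdB _ m ⟨d, he⟩) := by
        apply Subtype.ext
        rw [coe_heckeAlphaBar, Fermat.Agent.TwoGauss.coe_jdB, Fermat.Agent.TwoGauss.coe_jdB]
      rw [h1, swapHom_alpha]
      exact wq_alpha hq hm _
  exact DFunLike.congr_fun h f

/-- `N_α f = f · secNorm_q (w_q f)` on `q`-expansions. -/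
theorem coe_normAlong_bar (hq : q.Prime) (hm : ¬ q ∣ m) (f : modularFunctionFieldBar (m * q)) :
    (normAlong (heckeAlphaBar (AlgebraicClosure ℚ) m q) f : LaurentSeries (AlgebraicClosure ℚ)) =
      (f : LaurentSeries (AlgebraicClosure ℚ)) * secNorm (AlgebraicClosure ℚ) q (wq hq hm f) := by
  have hc := (Nat.Prime.coprime_iff_not_dvd hq).mpr hm
  have hwα : ∀ f : FF0 (AlgebraicClosure ℚ) m,
      ((FF0 (AlgebraicClosure ℚ) (m * q)).val.comp (swapHom iota hc)).toRingHom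
        (heckeAlphaBar (AlgebraicClosure ℚ) m q f) =
      qExpand (AlgebraicClosure ℚ) q (f : LaurentSeries (AlgebraicClosure ℚ)) := by
    intro f
    show ((swapHom iota hc (heckeAlphaBar (AlgebraicClosure ℚ) m q f) :
      FF0 (AlgebraicClosure ℚ) (m * q)) : LaurentSeries (AlgebraicClosure ℚ)) = _
    rw [swapHom_alpha, coe_heckeBetaBar]
  have hx₀ : (toCov (AlgebraicClosure ℚ) q)
      (((FF0 (AlgebraicClosure ℚ) (m * q)).val.comp (swapHom iota hc)).toRingHom
        (heckeBetaBar (AlgebraicClosure ℚ) m q ⟨coeffEmb _ jq, coeffEmb_jq_mem⟩)) ∉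
      (algebraMap (LaurentSeries (AlgebraicClosure ℚ)) (Cov (AlgebraicClosure ℚ) q)).range := by
    have : ((FF0 (AlgebraicClosure ℚ) (m * q)).val.comp (swapHom iota hc)).toRingHom
        (heckeBetaBar (AlgebraicClosure ℚ) m q ⟨coeffEmb _ jq, coeffEmb_jq_mem⟩) =
        coeffEmb (AlgebraicClosure ℚ) jq := by
      show ((swapHom iota hc (heckeBetaBar (AlgebraicClosure ℚ) m q _) :
        FF0 (AlgebraicClosure ℚ) (m * q)) : LaurentSeries (AlgebraicClosure ℚ)) = _
      rw [swapHom_beta, coe_heckeAlphaBar]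
    rw [this]
    exact jq_not_mem_range hq
  have key := coe_normAlong hq _ hwα (finrankAlong_alpha m q hq hm) _ hx₀ f
  rw [key, wq_eq_swapHom hq hm]
  rfl

/-- `w_q` commutes with `T_ℓ` on functions. -/
theorem TEll_wq (hq : q.Prime) (hm : ¬ q ∣ m) (hqℓ : Nat.Coprime q ℓ)
    (f : modularFunctionFieldBar (m * q)) :
    TEll (AlgebraicClosure ℚ) (m * q) ℓ (wq hq hm f) =
      wq hq hm (TEll (AlgebraicClosure ℚ) (m * q) ℓ f) := by
  rw [wq_eq_swapHom, wq_eq_swapHom]
  exact TEll_swap iota ((Nat.Prime.coprime_iff_not_dvd hq).mpr hm) hqℓ f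

theorem exists_unit_primitiveRoot (n : ℕ) [NeZero n] :
    ∃ c : (AlgebraicClosure ℚ)ˣ, IsPrimitiveRoot (c : AlgebraicClosure ℚ) n := by
  obtain ⟨ζ, hζ⟩ := HasEnoughRootsOfUnity.exists_primitiveRoot (AlgebraicClosure ℚ) n
  exact ⟨hζ.isUnit (NeZero.ne n) |>.unit, by simpa using hζ⟩

/-- the norm along `α` commutes with `T_ℓ` on functions. -/
theorem normAlong_TEll (hq : q.Prime) (hm : ¬ q ∣ m) (hℓ : ℓ.Prime) (hℓm : ¬ ℓ ∣ m * q)
    (f : modularFunctionFieldBar (m * q)) :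
    normAlong (heckeAlphaBar (AlgebraicClosure ℚ) m q) (TEll (AlgebraicClosure ℚ) (m * q) ℓ f) =
      TEll (AlgebraicClosure ℚ) m ℓ (normAlong (heckeAlphaBar (AlgebraicClosure ℚ) m q) f) := by
  have hℓm' : ¬ ℓ ∣ m := fun h => hℓm (h.mul_right q)
  have hqℓ : Nat.Coprime ℓ q := (Nat.Prime.coprime_iff_not_dvd hℓ).mpr
    fun h => hℓm (h.mul_left m)
  obtain ⟨c, hc⟩ := exists_unit_primitiveRoot q
  obtain ⟨d, hd⟩ := exists_unit_primitiveRoot ℓ
  apply Subtype.ext
  rw [coe_normAlong_bar hq hm, coe_TEll_bar m ℓ hℓ hℓm', coe_normAlong_bar hq hm, map_mul,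
    ← TEll_wq hq hm hqℓ.symm, coe_TEll_bar (m * q) ℓ hℓ hℓm, coe_TEll_bar (m * q) ℓ hℓ hℓm,
    secNorm_TSer q ℓ hqℓ c d hc hd]

end Fermat.Agent.QX4

end
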