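import Fermat.Agent.ModFun.SecProd
import Fermat.Agent.TEll.Basic

/-!
# `secNorm q` commutes with `T_ℓ` on Laurent series
-/

set_option autoImplicit false

noncomputable section

open ModularCurve Fermat.Agent.TEll Fermat.Agent.X0Emb Fermat.Agent.ModFun

namespace Fermat.Agent.QX4

variable {R : Type*} [CommRing R]

theorem twist_qExpand_pow (c : Rˣ) (ℓ : ℕ) [NeZero ℓ] (y : LaurentSeries R) :
    twist c (qExpand R ℓ y) = qExpand R ℓ (twist (c ^ ℓ) y) := by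
  ext m
  rw [twist_coeff]
  by_cases hm : (ℓ : ℤ) ∣ m
  · obtain ⟨k, rfl⟩ := hm
    rw [qExpand_coeff_mul, qExpand_coeff_mul, twist_coeff, zpow_mul, zpow_natCast]
  · rw [qExpand_coeff_of_not_dvd ℓ _ hm, qExpand_coeff_of_not_dvd ℓ _ hm, mul_zero]

theorem twist_twist (c d : Rˣ) (y : LaurentSeries R) : twist c (twist d y) = twist (c * d) y := by
  ext m
  rw [twist_coeff, twist_coeff, twist_coeff, mul_zpow, Units.val_mul, mul_assoc]

theorem qExpand_comm (q ℓ : ℕ) [NeZero q] [NeZero ℓ] (y : LaurentSeries R) :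
    qExpand R q (qExpand R ℓ y) = qExpand R ℓ (qExpand R q y) := by
  haveI : NeZero (q * ℓ) := ⟨Nat.mul_ne_zero (NeZero.ne q) (NeZero.ne ℓ)⟩
  haveI : NeZero (ℓ * q) := ⟨Nat.mul_ne_zero (NeZero.ne ℓ) (NeZero.ne q)⟩
  rw [qExpand_qExpand, qExpand_qExpand]
  congr 1
  ext x : 1
  ext m
  have h1 : ((ℓ * q : ℕ) : ℤ) = ((q * ℓ : ℕ) : ℤ) := by push_cast; ring
  by_cases hm : ((ℓ * q : ℕ) : ℤ) ∣ m
  · obtain ⟨k, rfl⟩ := hm
    rw [qExpand_coeff_mul, h1, qExpand_coeff_mul]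
  · rw [qExpand_coeff_of_not_dvd _ _ hm, qExpand_coeff_of_not_dvd _ _ (h1 ▸ hm)]

theorem qExpand_injective (q : ℕ) [NeZero q] : Function.Injective (qExpand R q) := by
  intro x y h
  ext m
  rw [← qExpand_coeff_mul q x, h, qExpand_coeff_mul]

variable [IsDomain R]

/-- `secNorm q` commutes with `t ↦ t^ℓ`, `ℓ` prime to `q`. -/
theorem secNorm_qExpand (q ℓ : ℕ) [NeZero q] [NeZero ℓ] (hcop : Nat.Coprime ℓ q) (c : Rˣ)
    (hc : IsPrimitiveRoot (c : R) q) (y : LaurentSeries R) :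
    secNorm R q (qExpand R ℓ y) = qExpand R ℓ (secNorm R q y) := by
  apply qExpand_injective q
  have hcℓ : IsPrimitiveRoot ((c ^ ℓ : Rˣ) : R) q := by
    rw [Units.val_pow_eq_pow_val]
    exact hc.pow_of_coprime ℓ hcop
  rw [qExpand_secNorm q c hc, qExpand_comm, qExpand_secNorm q (c ^ ℓ) hcℓ, map_prod]
  refine Finset.prod_congr rfl fun b _ => ?_
  rw [twist_qExpand_pow, ← pow_mul, ← pow_mul, mul_comm]

/-- `secNorm q` and `secNorm ℓ` commute. -/
theorem secNorm_secNorm (q ℓ : ℕ) [NeZero q] [NeZero ℓ] (hcop : Nat.Coprime ℓ q) (c d : Rˣ)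
    (hc : IsPrimitiveRoot (c : R) q) (hd : IsPrimitiveRoot (d : R) ℓ) (y : LaurentSeries R) :
    secNorm R q (secNorm R ℓ y) = secNorm R ℓ (secNorm R q y) := by
  have key : ∀ (q ℓ : ℕ) [NeZero q] [NeZero ℓ] (_ : Nat.Coprime ℓ q) (c d : Rˣ)
      (_ : IsPrimitiveRoot (c : R) q) (_ : IsPrimitiveRoot (d : R) ℓ) (y : LaurentSeries R),
      qExpand R ℓ (qExpand R q (secNorm R q (secNorm R ℓ y))) =
        ∏ b : Fin q, ∏ a : Fin ℓ, twist (c ^ (b : ℕ) * d ^ (a : ℕ)) y := by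
    intro q ℓ _ _ hcop c d hc hd y
    have hcℓ : IsPrimitiveRoot ((c ^ ℓ : Rˣ) : R) q := by
      rw [Units.val_pow_eq_pow_val]
      exact hc.pow_of_coprime ℓ hcop
    rw [qExpand_secNorm q (c ^ ℓ) hcℓ, map_prod]
    refine Finset.prod_congr rfl fun b _ => ?_
    have h1 : (c ^ ℓ) ^ (b : ℕ) = (c ^ (b : ℕ)) ^ ℓ := by rw [← pow_mul, ← pow_mul, mul_comm]
    rw [h1, ← twist_qExpand_pow, qExpand_secNorm ℓ d hd, map_prod]
    refine Finset.prod_congr rfl fun a _ => ?_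
    rw [twist_twist]
  apply qExpand_injective q
  apply qExpand_injective ℓ
  rw [key q ℓ hcop c d hc hd, qExpand_comm ℓ q, key ℓ q hcop.symm d c hd hc, Finset.prod_comm]
  refine Finset.prod_congr rfl fun b _ => Finset.prod_congr rfl fun a _ => ?_
  rw [mul_comm]

/-- `secNorm q` commutes with `T_ℓ`. -/
theorem secNorm_TSer (q ℓ : ℕ) [NeZero q] [NeZero ℓ] (hcop : Nat.Coprime ℓ q) (c d : Rˣ)
    (hc : IsPrimitiveRoot (c : R) q) (hd : IsPrimitiveRoot (d : R) ℓ) (y : LaurentSeries R) :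
    secNorm R q (TSer R ℓ y) = TSer R ℓ (secNorm R q y) := by
  rw [TSer_apply, TSer_apply, map_mul, secNorm_qExpand q ℓ hcop c hc,
    secNorm_secNorm q ℓ hcop c d hc hd]

end Fermat.Agent.QX4

end
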